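import Fermat.Agent.MR.TH.Vert
import Fermat.Agent.CAR.BK.ConcLift
import Fermat.Agent.CAR.CNT.Main

/-!
# MR / TH / Conc : THE CONCRETE CHART RING `BT = B_t` of `E = FN(M₁ p)^I` (two vertical valuations `v_∞`, `v_0 = v_∞ ∘ w_p`),
the instance of `NS.Vert`, (KR) with `π = p`.
-/

set_option autoImplicit false

open ModularCurve AlgebraicCurve

noncomputable section

namespace Fermat.Agent.MR.TH

open Fermat.Agent.GR Fermat.Agent.GAL Fermat.Agent.GAL.KL Fermat.Agent.GAL.KLC Fermat.Agent.S24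
open Fermat.Agent.GR.HeckeField Fermat.Agent.TOR Fermat.Agent.TOR.GB Fermat.Agent.TOR.T1C
open Fermat.Agent.CAR Fermat.Agent.CAR.BK Fermat.Agent.CAR.ON Fermat.Agent.CAR.CNT
open Fermat.Agent.CAR.DESC

variable (M₁ p : ℕ) [NeZero M₁] [NeZero p] (A : ValuationSubring Qb)

/-- the chart ring `B = B_t ⊆ E = FN(M₁ p)^I`. -/
abbrev BT : Subring (EC A (M₁ * p)) :=
  B2 Qb (EC A (M₁ * p)) (vG A (M₁ * p)) (wq M₁ p) (tQ M₁ p)

/-- the two vertical valuations. -/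
abbrev vT : I2 → Valuation (EC A (M₁ * p)) (Ov A (M₁ * p)).ValueGroup :=
  vE Qb (EC A (M₁ * p)) (vG A (M₁ * p)) (wq M₁ p)

/-- the two vertical primes. -/
abbrev pT : I2 → Ideal (BT M₁ p A) :=
  pE Qb (EC A (M₁ * p)) (vG A (M₁ * p)) (wq M₁ p) (tQ M₁ p)

/-- `π = p`. -/
abbrev piT : BT M₁ p A := (p : BT M₁ p A)

variable {M₁ p}

theorem coe_piT : (((piT M₁ p A : BT M₁ p A) : EC A (M₁ * p)) : FN (M₁ * p))
    = algebraMap Qb (FN (M₁ * p)) (p : Qb) := by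
  rw [map_natCast]
  rfl

/-- (`galF_alp`.) -/
theorem alp_mem_EC {c : FN M₁} (hc : c ∈ EC A M₁) : alp M₁ p c ∈ EC A (M₁ * p) := by
  rw [mem_EC_iff_galF] at hc ⊢
  intro τ hτ
  rw [galF_alp, hc τ hτ]

/-- (`galF_bet`.) -/
theorem bet_mem_EC {c : FN M₁} (hc : c ∈ EC A M₁) : bet M₁ p c ∈ EC A (M₁ * p) := by
  rw [mem_EC_iff_galF] at hc ⊢
  intro τ hτ
  rw [galF_bet, hc τ hτ]

/-- (`wq_galF`.) -/
theorem wq_mem_EC (hp : p.Prime) (hpM : ¬ p ∣ M₁) {z : FN (M₁ * p)} (hz : z ∈ EC A (M₁ * p)) :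
    wq M₁ p z ∈ EC A (M₁ * p) := by
  rw [mem_EC_iff_galF] at hz ⊢
  intro τ hτ
  rw [← wq_galF hp hpM, hz τ hτ]

theorem tQ_mem_EC : tQ M₁ p ∈ EC A (M₁ * p) :=
  mul_mem (alp_mem_EC A (xF_mem_EC A M₁)) (bet_mem_EC A (xF_mem_EC A M₁))

variable (hM : AdmLevel M₁) (hp : p.Prime) (hpM : ¬ p ∣ M₁) (hA : A.LiesOverPrime p)
include hM hp hpM hA

theorem xDatT : T1.XDat Qb (rho A M₁) (xF M₁) (xF' M₁) (xR (kA A) M₁) (xR' (kA A) M₁) (mX M₁) p :=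
  xDat M₁ p hp A hA (spansStatement M₁) (riStatement M₁) (ctStatement M₁ p hM hp hpM A hA)

/-- **the chart `(x, t, ξ)`.** -/
theorem chartT : Chart2 Qb (rho A M₁) (rho A (M₁ * p)) (alp M₁ p) (bet M₁ p) (wq M₁ p) (EC A M₁)
    (EC A (M₁ * p)) p (xF M₁) (tQ M₁ p) (xR (kA A) M₁) := by
  obtain ⟨P₀, P₁, C⟩ := exists_cusp M₁ p hp hpM
  exact
  { αE := fun _ hc => alp_mem_EC A hc
    βE := fun _ hc => bet_mem_EC A hc
    u₀E := xF_mem_EC A M₁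
    ru := (xDatT A hM hp hpM hA).rx
    Vη := (xDatT A hM hp hpM hA).Vx
    oη := by
      rw [(xDatT A hM hp hpM hA).ox]
      have := (xDatT A hM hp hpM hA).m_pos
      omega
    ci := T1.chartIn_t (lvl A M₁ p hp hpM) (xDatT A hM hp hpM hA) hp.two_le
      (arch A (M₁ * p) hp hA) C
    lift := fun c φ h hφ => liftC A hM hp hpM hA c φ h hφ
    fr := fun c φ h => frC A hM hp hpM hA c φ h }

/-- **(TH1) `NS.Vert` for `B = B_t`.** -/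
theorem vertT : NS.Vert (BT M₁ p A) (vT M₁ p A) (pT M₁ p A) :=
  vert (lvl A M₁ p hp hpM) (chartT A hM hp hpM hA) hp.two_le (arch A (M₁ * p) hp hA)
    (RP.isDedekindDomain_RC M₁ p hM hp hpM A hA)

/-- the reduction maps `B → R' = RC A M₁`. -/
def rT (j : I2) : BT M₁ p A →+* RP.RC A M₁ :=
  rR (lvl A M₁ p hp hpM) (chartT A hM hp hpM hA) j

theorem rT_surjective (j : I2) : Function.Surjective (rT A hM hp hpM hA j) :=
  rR_surjective _ _ j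

theorem rT_eq_zero_iff (j : I2) (z : BT M₁ p A) :
    rT A hM hp hpM hA j z = 0 ↔ z ∈ pT M₁ p A j :=
  rR_eq_zero_iff _ _ j z

theorem rd_rT (j : I2) (z : BT M₁ p A) :
    T1.Rd (rho A (M₁ * p)) (wj (wq M₁ p) j ((z : EC A (M₁ * p)) : FN (M₁ * p)))
      ((rT A hM hp hpM hA j z : RP.RC A M₁) : LaurentSeries (kA A)) :=
  rd_rE _ _ _ _ j z

omit hM hpM hA in
theorem piT_ne_zero : piT M₁ p A ≠ 0 := by
  intro h
  have h1 := coe_piT (M₁ := M₁) (p := p) A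
  rw [h] at h1
  have h2 : algebraMap Qb (FN (M₁ * p)) (p : Qb) = 0 := h1.symm
  rw [map_eq_zero] at h2
  exact hp.ne_zero (by exact_mod_cast h2)

omit hM hpM hA in
/-- **(TH2) (KR) with `π = p`.** -/
theorem krT (z : EC A (M₁ * p))
    (h1 : ∃ N : ℕ, ((piT M₁ p A : BT M₁ p A) : EC A (M₁ * p)) ^ N * z ∈ BT M₁ p A)
    (h2 : ∀ j, vT M₁ p A j z ≤ 1) : z ∈ BT M₁ p A :=
  kr (p : Qb) (by exact_mod_cast hp.ne_zero) (piT M₁ p A) (coe_piT A) z h1 h2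

end Fermat.Agent.MR.TH
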