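import Fermat.Agent.CAR.BK.BL
import Fermat.Agent.CAR.CNT.Main
import Fermat.Agent.TOR.KL2.ONBasis
import Fermat.Agent.CAR.BK.Lift

/-!
# MR / TH / BL2 : (BL) for TWO valuations: a function of `B_t` with `|z|_∞ ≤ 1`, `|z|_0 ≤ 1` has its `Q`-expansion coefficients in `A`
(port of `CAR/BK/BL.lean` from `ON` to `ON2`)
-/

set_option autoImplicit false

open Polynomial ModularCurve AlgebraicCurve

noncomputable section

namespace Fermat.Agent.MR.TH

open Fermat.Agent.GR Fermat.Agent.GAL Fermat.Agent.GAL.KL Fermat.Agent.GAL.KLC Fermat.Agent.S24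
open Fermat.Agent.GR.HeckeField Fermat.Agent.TOR.GB Fermat.Agent.TOR Fermat.Agent.TOR.T1C
open Fermat.Agent.TOR.KL2 Fermat.Agent.CAR Fermat.Agent.CAR.BK Fermat.Agent.CAR.CNT

/-- **(BL2), abstract in the second valuation.** -/
theorem coeff_mem_of_ON2 {ℓ : ℕ} (hℓ : ℓ.Prime) (A : ValuationSubring Qb) (hA : A.LiesOverPrime ℓ)
    (M : ℕ) {u : FL Qb M} (hu : ∀ n, (u : LaurentSeries Qb).coeff n ∈ A)
    {v₂ : Valuation (FL Qb M) (Ov A M).ValueGroup} (S : Setup Qb (vG A M) v₂ u) {d : ℕ}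
    (β : Fin d → FL Qb M) (hβ : ON2 Qb (vG A M) v₂ u β)
    (hβs : Spans Qb u β) {z : FL Qb M} (hz : IsInt Qb u z) (hv : vG A M z ≤ 1) (hv2 : v₂ z ≤ 1) :
    ∀ n, (z : LaurentSeries Qb).coeff n ∈ A := by
  classical
  have hG := S.G1
  obtain ⟨b, hb⟩ := exists_basis_BB hG.inj β (hβ.inj S) hβs
  obtain ⟨e, he, hON⟩ := exists_ON2_basis S β hβ hβs (BB Qb u) b hb
  have huS : (u : LaurentSeries Qb) ∈ blS A := (bl_mem_S_iff A).2 hu
  have hemem : ∀ j, IsInt Qb u (e j) := fun j =>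
    (he.2 (e j)).2 ⟨Pi.single j 1, by rw [comb_single, map_one, one_mul]⟩
  have he1 : ∀ j, vG A M (e j) ≤ 1 ∧ v₂ (e j) ≤ 1 := fun j =>
    NN_le_iff.1 (le_of_eq (hON.NN_eq_one j))
  -- an element of `B_u` of sup norm `≤ 1` is an `S`-combination of the `e_j`
  have hcomb : ∀ x : FL Qb M, IsInt Qb u x → vG A M x ≤ 1 → v₂ x ≤ 1 →
      ∃ c : Fin d → LaurentSeries Qb, (∀ i, c i ∈ blS A) ∧
        (x : LaurentSeries Qb) = ∑ i, c i * (e i : LaurentSeries Qb) := by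
    intro x hx hvx hvx2
    obtain ⟨P, hP⟩ := (he.2 x).1 hx
    refine ⟨fun i => ((aeval u (P i) : FL Qb M) : LaurentSeries Qb), fun i => ?_, ?_⟩
    · refine bl_aeval_mem_S A M huS (P i) fun n => bl_mem_of_vG_le A M ?_
      refine (hG (P i) 1).1 ?_ n
      refine (hON P 1).1 ?_ i
      rw [← hP]
      exact NN_le_iff.2 ⟨hvx, hvx2⟩
    · rw [hP, comb, ← IntermediateField.coe_val, map_sum]
      rfl
  -- the module `N`
  let E : Fin d → LaurentSeries Qb := fun j => (e j : LaurentSeries Qb)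
  let N : Submodule (blS A) (LaurentSeries Qb) := Submodule.span (blS A) (Set.range E)
  have hN_of : ∀ c : Fin d → LaurentSeries Qb, (∀ i, c i ∈ blS A) → ∑ i, c i * E i ∈ N := by
    intro c hc
    refine Submodule.sum_mem _ fun i _ => ?_
    exact N.smul_mem (⟨c i, hc i⟩ : blS A) (Submodule.subset_span ⟨i, rfl⟩)
  have h1N : (1 : LaurentSeries Qb) ∈ N := by
    obtain ⟨c, hc, h⟩ := hcomb 1 IsInt.one (by rw [map_one]) (by rw [map_one])
    have h' : (1 : LaurentSeries Qb) = ∑ i, c i * E i := h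
    rw [h']
    exact hN_of c hc
  have hsN : ∀ s ∈ blS A, ∀ x ∈ N, s * x ∈ N := fun s hs x hx => N.smul_mem (⟨s, hs⟩ : blS A) hx
  have hzN : ∀ x ∈ N, (z : LaurentSeries Qb) * x ∈ N := by
    intro x hx
    induction hx using Submodule.span_induction with
    | mem x hx =>
      obtain ⟨j, rfl⟩ := hx
      obtain ⟨c, hc, h⟩ := hcomb (z * e j) (hz.mul (hemem j))
        (by rw [map_mul]; exact mul_le_one' hv (he1 j).1)
        (by rw [map_mul]; exact mul_le_one' hv2 (he1 j).2)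
      have h' : (z : LaurentSeries Qb) * E j = ∑ i, c i * E i := h
      rw [h']
      exact hN_of c hc
    | zero => rw [mul_zero]; exact N.zero_mem
    | add x y _ _ hx hy => rw [mul_add]; exact N.add_mem hx hy
    | smul a x _ hx =>
      have h' : (z : LaurentSeries Qb) * (a • x) = a • ((z : LaurentSeries Qb) * x) := by
        rw [Subring.smul_def, Subring.smul_def, smul_eq_mul, smul_eq_mul]
        ring
      rw [h']
      exact N.smul_mem a hx
  have hpowN : ∀ s ∈ blS A, ∀ r : ℕ, ((z : LaurentSeries Qb) - s) ^ r ∈ N := by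
    intro s hs r
    induction r with
    | zero => rw [pow_zero]; exact h1N
    | succ r ih =>
      rw [pow_succ', sub_mul]
      exact N.sub_mem (hzN _ ih) (hsN s hs _ ih)
  -- the denominators
  have hQ : ∀ j, ∃ Q : LaurentSeries Qb, Q ∈ blS A ∧ Q ≠ 0 ∧ Q * E j ∈ blS A := by
    intro j
    obtain ⟨zb, P, Q, hQ, -, hx⟩ := (ValThm_le_one_iff A M).1 (he1 j).1
    refine ⟨coeffMap A.subtype Q, ⟨Q, rfl⟩, ?_, ?_⟩
    · intro h0
      apply hQ
      have : Q = 0 := incl_injective (A := A) (by rw [h0, map_zero])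
      rw [this, map_zero]
    · rw [mul_comm]
      exact ⟨P, hx.symm⟩
  choose Q hQS hQ0 hQE using hQ
  have hD0 : (∏ j, Q j) ≠ 0 := Finset.prod_ne_zero_iff.2 fun j _ => hQ0 j
  have hDN : ∀ x ∈ N, (∏ j, Q j) * x ∈ blS A := by
    intro x hx
    induction hx using Submodule.span_induction with
    | mem x hx =>
      obtain ⟨j, rfl⟩ := hx
      rw [← Finset.prod_erase_mul Finset.univ Q (Finset.mem_univ j), mul_assoc]
      exact Subring.mul_mem _ (Subring.prod_mem _ fun i _ => hQS i) (hQE j)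
    | zero => rw [mul_zero]; exact Subring.zero_mem _
    | add x y _ _ hx hy => rw [mul_add]; exact Subring.add_mem _ hx hy
    | smul a x _ hx =>
      have h' : (∏ j, Q j) * (a • x) = (a : LaurentSeries Qb) * ((∏ j, Q j) * x) := by
        rw [Subring.smul_def, smul_eq_mul]
        ring
      rw [h']
      exact Subring.mul_mem _ a.2 hx
  refine coeff_mem_of_forall_pow A (rank_one hℓ A hA) hD0 fun s hs r n => ?_
  exact (bl_mem_S_iff A).1 (hDN _ (hpowN s ((bl_mem_S_iff A).2 hs) r)) n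

/-- a function with coefficients in `A` and Gauss norm `1` has a unit coefficient. -/
theorem exists_unit_coeff (A : ValuationSubring Qb) (M : ℕ) {x : FL Qb M}
    (hx : ∀ n, (x : LaurentSeries Qb).coeff n ∈ A) (hv : vG A M x = 1) :
    ∃ n, (x : LaurentSeries Qb).coeff n ∉ A.nonunits := by
  obtain ⟨zb, h⟩ := (ValThm_le_one_iff A M).1 hv.le
  have hzb : zb ≠ 0 := by
    rintro rfl
    have := (vG_lt_one_iff A M).2 h
    rw [hv] at this
    exact lt_irrefl _ this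
  obtain ⟨y, hy⟩ := exists_int_of_coeff_mem A _ hx
  rw [← hy] at h
  have hyb := h.eq_of_int
  have hne : coeffMap (IsLocalRing.residue A) y ≠ 0 := by rw [hyb]; exact hzb
  obtain ⟨n₀, hn₀⟩ : ∃ n₀, (coeffMap (IsLocalRing.residue A) y).coeff n₀ ≠ 0 := by
    by_contra hcon
    push Not at hcon
    exact hne (HahnSeries.ext (funext hcon))
  rw [coeffMap_coeff, Ne, IsLocalRing.residue_eq_zero_iff] at hn₀
  refine ⟨n₀, fun hmem => hn₀ ?_⟩
  have e : (x : LaurentSeries Qb).coeff n₀ = ((y.coeff n₀ : A) : Qb) := by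
    rw [← hy, coeffMap_coeff]
    rfl
  rw [e] at hmem
  exact ValuationSubring.coe_mem_nonunits_iff.1 hmem

variable {M₁ p : ℕ} [NeZero M₁] [NeZero p]

/-- `t` has integer coefficients. -/
theorem coeff_tQ_mem (A : ValuationSubring Qb) (n : ℤ) :
    ((tQ M₁ p : FN (M₁ * p)) : LaurentSeries Qb).coeff n ∈ A := by
  have e : ((tQ M₁ p : FN (M₁ * p)) : LaurentSeries Qb)
      = coeffMap (Int.castRingHom Qb) (XZ M₁ * qExpand ℤ p (XZ M₁)) := by
    have e1 : ((tQ M₁ p : FN (M₁ * p)) : LaurentSeries Qb)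
        = ((alp M₁ p (xF M₁) : FN (M₁ * p)) : LaurentSeries Qb)
          * ((bet M₁ p (xF M₁) : FN (M₁ * p)) : LaurentSeries Qb) := rfl
    rw [e1, coe_heckeAlphaBar, coe_heckeBetaBar, map_mul, GR.coeffMap_qExpand]
    rfl
  rw [e]
  exact Lift_coeff_int_mem A _ n

variable (hM : AdmLevel M₁) (hp : p.Prime) (hpM : ¬ p ∣ M₁) (A : ValuationSubring Qb)
  (hA : A.LiesOverPrime p)
include hM hp hpM hA

/-- **(BL2).** -/
theorem coeff_mem_of_isInt2 {z : FN (M₁ * p)} (hz : IsInt Qb (tQ M₁ p) z)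
    (h1 : vG A (M₁ * p) z ≤ 1) (h2 : vG A (M₁ * p) (wq M₁ p z) ≤ 1) :
    ∀ n, (z : LaurentSeries Qb).coeff n ∈ A := by
  have H := lvl A M₁ p hp hpM
  have X := xDat M₁ p hp A hA (spansStatement M₁) (riStatement M₁) (ctStatement M₁ p hM hp hpM A hA)
  obtain ⟨P₀, P₁, C⟩ := exists_cusp M₁ p hp hpM
  exact coeff_mem_of_ON2 hp A hA (M₁ * p) (coeff_tQ_mem A) (T1.setup H X) _
    (T1.on2_ee H X hp.two_le) (T1.spans_ee H X hp.two_le C) hz h1 h2

/-- **(MAX2).** -/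
theorem exists_max_coeff2 {z : FN (M₁ * p)} (hz : IsInt Qb (tQ M₁ p) z) (hz0 : z ≠ 0) :
    ∃ a : Qb, a ≠ 0 ∧ (∀ n, a * (z : LaurentSeries Qb).coeff n ∈ A) ∧
      (∀ n, a * ((wq M₁ p z : FN (M₁ * p)) : LaurentSeries Qb).coeff n ∈ A) ∧
      ((∃ n, a * (z : LaurentSeries Qb).coeff n ∉ A.nonunits) ∨
        ∃ n, a * ((wq M₁ p z : FN (M₁ * p)) : LaurentSeries Qb).coeff n ∉ A.nonunits) := by
  have H := lvl A M₁ p hp hpM
  set v := vG A (M₁ * p) with hv
  have hwz0 : wq M₁ p z ≠ 0 := (_root_.map_ne_zero _).2 hz0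
  have hcoe : ∀ (c : Qb) (y : FN (M₁ * p)) (n : ℤ),
      ((algebraMap Qb (FN (M₁ * p)) c * y : FN (M₁ * p)) : LaurentSeries Qb).coeff n
        = c * (y : LaurentSeries Qb).coeff n := by
    intro c y n
    have e1 : ((algebraMap Qb (FN (M₁ * p)) c * y : FN (M₁ * p)) : LaurentSeries Qb)
        = HahnSeries.C c * (y : LaurentSeries Qb) := by
      rw [← ValThm_coe_algebraMap (M₁ * p) c]; rfl
    rw [e1, HahnSeries.C_mul_eq_smul, HahnSeries.coeff_smul, smul_eq_mul]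
  -- a constant `c` with `max (v (c z)) (v (c w z)) = 1`
  obtain ⟨c, hc0, hc1, hc2, hc3⟩ : ∃ c : Qb, c ≠ 0 ∧ v (algebraMap Qb _ c * z) ≤ 1 ∧
      v (algebraMap Qb _ c * wq M₁ p z) ≤ 1 ∧
      (v (algebraMap Qb _ c * z) = 1 ∨ v (algebraMap Qb _ c * wq M₁ p z) = 1) := by
    obtain ⟨a₁, ha₁⟩ := H.red.val z hz0
    obtain ⟨a₂, ha₂⟩ := H.red.val _ hwz0
    have hvz : v z ≠ 0 := (Valuation.ne_zero_iff _).2 hz0
    have hvw : v (wq M₁ p z) ≠ 0 := (Valuation.ne_zero_iff _).2 hwz0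
    have ha₁0 : a₁ ≠ 0 := by
      rintro rfl
      rw [map_zero, map_zero] at ha₁
      exact hvz ha₁
    have ha₂0 : a₂ ≠ 0 := by
      rintro rfl
      rw [map_zero, map_zero] at ha₂
      exact hvw ha₂
    rcases le_total (v (wq M₁ p z)) (v z) with hle | hle
    · refine ⟨a₁⁻¹, inv_ne_zero ha₁0, ?_, ?_, Or.inl ?_⟩
      · rw [map_mul, map_inv₀, map_inv₀, ← ha₁, inv_mul_cancel₀ hvz]
      · rw [map_mul, map_inv₀, map_inv₀, ← ha₁]
        calc (v z)⁻¹ * v (wq M₁ p z) ≤ (v z)⁻¹ * v z := mul_le_mul_right hle _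
          _ = 1 := inv_mul_cancel₀ hvz
      · rw [map_mul, map_inv₀, map_inv₀, ← ha₁, inv_mul_cancel₀ hvz]
    · refine ⟨a₂⁻¹, inv_ne_zero ha₂0, ?_, ?_, Or.inr ?_⟩
      · rw [map_mul, map_inv₀, map_inv₀, ← ha₂]
        calc (v (wq M₁ p z))⁻¹ * v z ≤ (v (wq M₁ p z))⁻¹ * v (wq M₁ p z) := mul_le_mul_right hle _
          _ = 1 := inv_mul_cancel₀ hvw
      · rw [map_mul, map_inv₀, map_inv₀, ← ha₂, inv_mul_cancel₀ hvw]
      · rw [map_mul, map_inv₀, map_inv₀, ← ha₂, inv_mul_cancel₀ hvw]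
  have hw1 : wq M₁ p (algebraMap Qb _ c * z) = algebraMap Qb _ c * wq M₁ p z := by
    rw [map_mul, AlgEquiv.commutes]
  have hw2 : wq M₁ p (algebraMap Qb _ c * wq M₁ p z) = algebraMap Qb _ c * z := by
    rw [map_mul, AlgEquiv.commutes, H.ww]
  have hi1 : IsInt Qb (tQ M₁ p) (algebraMap Qb _ c * z) := (IsInt.algebraMap c).mul hz
  have hi2 : IsInt Qb (tQ M₁ p) (algebraMap Qb _ c * wq M₁ p z) :=
    (IsInt.algebraMap c).mul (T1.isInt_w (T1.w_tt H _) hz)
  have k1 := coeff_mem_of_isInt2 hM hp hpM A hA hi1 hc1 (by rw [hw1]; exact hc2)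
  have k2 := coeff_mem_of_isInt2 hM hp hpM A hA hi2 hc2 (by rw [hw2]; exact hc1)
  refine ⟨c, hc0, fun n => by rw [← hcoe]; exact k1 n, fun n => by rw [← hcoe]; exact k2 n, ?_⟩
  rcases hc3 with h | h
  · obtain ⟨n, hn⟩ := exists_unit_coeff A (M₁ * p) k1 h
    exact Or.inl ⟨n, by rw [← hcoe]; exact hn⟩
  · obtain ⟨n, hn⟩ := exists_unit_coeff A (M₁ * p) k2 h
    exact Or.inr ⟨n, by rw [← hcoe]; exact hn⟩

end Fermat.Agent.MR.TH
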