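import Fermat.Agent.MR.TH.Main
import Fermat.Agent.CAR.TH1.Pl.Theta

/-!
# MR / TH / Final : the base chart of level `p N'`, UNCONDITIONALLY
-/

set_option autoImplicit false

open ModularCurve AlgebraicCurve Polynomial

noncomputable section

namespace Fermat.Agent.MR.TH

open Fermat.Agent.GR Fermat.Agent.GAL Fermat.Agent.GAL.KL Fermat.Agent.GAL.KLC Fermat.Agent.S24
open Fermat.Agent.CAR Fermat.Agent.CAR.BK Fermat.Agent.CAR.CNT

variable {M₁ p : ℕ} [NeZero M₁] [NeZero p] (A : ValuationSubring Qb)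
  (hM : AdmLevel M₁) (hp : p.Prime) (hpM : ¬ p ∣ M₁) (hA : A.LiesOverPrime p)
include hM hp hpM hA

/-- **THE BASE CHART OF LEVEL `M₁ p`** (`NS.Vert`, (KR), `π = p` uniformiser, thickness one, `Frac`, noetherian). -/
theorem base : MR.C.Base (BT M₁ p A) (vT M₁ p A) (pT M₁ p A) (piT M₁ p A) :=
  baseT A hM hp hpM hA (TH1.isInt_XF hp hpM)

/-- **Theorem NS at level `M₁ p`**: for `w ∈ E^×` with `n ∣ div w` and `|w| = (1, 1)`, near every closed point `P` of the special fibre there is a section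
`φ` with `φ^n w` a unit at `P`. -/
theorem ns {n : ℕ} (hn : 0 < n) {w : EC A (M₁ * p)} (hw : ∀ j, vT M₁ p A j w = 1)
    (hP : ∀ P : Place Qb (FN (M₁ * p)), (n : ℤ) ∣ P.ord (w : FN (M₁ * p)))
    (P : Ideal (BT M₁ p A)) (hPm : P.IsMaximal) (hex : ∃ i, pT M₁ p A i ≤ P) :
    ∃ φ ∈ NS.Lam (BT M₁ p A) n w, ∃ u : BT M₁ p A, (u : EC A (M₁ * p)) = φ ^ n * w ∧ u ∉ P := by
  have hB := base A hM hp hpM hA
  have hw0 : w ≠ 0 := by
    rintro rfl
    have := hw ON.oo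
    rw [map_zero] at this
    exact zero_ne_one this
  have HG := hgT A hM hp hpM hA hn hw0 hP
  have hpr : ∀ j, ∃ ν y : BT M₁ p A, y ∉ pT M₁ p A j ∧
      NS.GenOn (BT M₁ p A) (vT M₁ p A j) (pT M₁ p A j) ν y := by
    intro j
    obtain ⟨y, hy, hg⟩ := NS.genOn_generic hB.vert hB.π0 hB.kr (j := j) (ν := piT M₁ p A) (e := 1)
      one_pos (hB.πlt j) (hB.πunif j) (pow_one _)
    exact ⟨_, y, hy, hg⟩
  obtain ⟨i, ν, y, hi, hy, hg⟩ := hB.pr P hPm hex
  exact NS.ns_main hB.vert hB.π0 hB.kr hn hw HG (NS.fg_abs hB.vert hB.π0 hB.kr hn hw HG hpr) hpr hPm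
    hi hy hg

end Fermat.Agent.MR.TH
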