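import Fermat.Agent.MR.TH.Conc
import Fermat.Agent.CAR.RP.Closed

/-!
# MR / TH / ASLift : lifting, ONE valuation at a time, of elements of the residue field which are integral over the reduced chart ring
(Artin-Schreier roots, `n`-th roots, …), by an INERTIA-FIXED element of the chart ring `BT`.
-/

set_option autoImplicit false

open ModularCurve AlgebraicCurve Polynomial

noncomputable section

namespace Fermat.Agent.MR.TH

open Fermat.Agent.GR Fermat.Agent.GAL Fermat.Agent.GAL.KL Fermat.Agent.GAL.KLC Fermat.Agent.S24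
open Fermat.Agent.GR.HeckeField Fermat.Agent.TOR Fermat.Agent.TOR.GB Fermat.Agent.TOR.T1C
open Fermat.Agent.CAR Fermat.Agent.CAR.BK Fermat.Agent.CAR.ON Fermat.Agent.CAR.CNT

variable {M₁ p : ℕ} [NeZero M₁] [NeZero p] (A : ValuationSubring Qb)
  (hM : AdmLevel M₁) (hp : p.Prime) (hpM : ¬ p ∣ M₁) (hA : A.LiesOverPrime p)
include hM hp hpM hA

/-- the reduction along the branch `j` of a function of `B_t(ℚ̄)` of sup norm `≤ 1` lies in `R' = RC A M₁`. -/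
theorem rd_mem_RC (j : I2) {b : FN (M₁ * p)} (hb : IsInt Qb (tQ M₁ p) b)
    (hb1 : vG A (M₁ * p) b ≤ 1) (hb2 : vG A (M₁ * p) (wq M₁ p b) ≤ 1)
    {β : LaurentSeries (kA A)} (hβ : T1.Rd (rho A (M₁ * p)) (wj (wq M₁ p) j b) β) :
    β ∈ RP.RC A M₁ := by
  have H := lvl A M₁ p hp hpM
  have C := chartT A hM hp hpM hA
  rw [RP.mem_RR]
  refine ⟨(mem_Fbar_iff H.red₀).2 (C.ci.res _ _ hβ), ?_⟩
  rcases I2_cases j with rfl | rfl
  · exact C.ci.ir _ _ hb hβ hb2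
  · refine C.ci.ir _ _ (T1.isInt_w C.ci.wu hb) hβ ?_
    show vG A (M₁ * p) (wq M₁ p (wq M₁ p b)) ≤ 1
    rw [H.ww]
    exact hb1

/-- every element of `R'` is the reduction along `j` of an inertia-fixed element of the chart ring. -/
theorem exists_BT_of_mem_RC (j : I2) {φ : LaurentSeries (kA A)} (hφ : φ ∈ RP.RC A M₁) :
    ∃ θ : BT M₁ p A,
      T1.Rd (rho A (M₁ * p)) (wj (wq M₁ p) j ((θ : EC A (M₁ * p)) : FN (M₁ * p))) φ := by
  obtain ⟨θ, hθ⟩ := rT_surjective A hM hp hpM hA j ⟨φ, hφ⟩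
  refine ⟨θ, ?_⟩
  have := rd_rT A hM hp hpM hA j θ
  rwa [hθ] at this

/-- **integral lift, one valuation at a time.**  `X ∈ F` with `|X|_j ≤ 1` whose reduction along `j` is a root of a monic polynomial with coefficients in `R'`
is congruent along `j` to an inertia-fixed element of the chart ring. -/
theorem exists_BT_of_isIntegral (j : I2) {X : FN (M₁ * p)} {φ : LaurentSeries (kA A)}
    (hX : T1.Rd (rho A (M₁ * p)) (wj (wq M₁ p) j X) φ) (hφ : IsIntegral (RP.RC A M₁) φ) :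
    ∃ θ : BT M₁ p A,
      vG A (M₁ * p) (wj (wq M₁ p) j (X - ((θ : EC A (M₁ * p)) : FN (M₁ * p)))) < 1 := by
  have H := lvl A M₁ p hp hpM
  have C := chartT A hM hp hpM hA
  have hmem : φ ∈ RP.RC A M₁ :=
    RP.mem_RR.2 ⟨(mem_Fbar_iff H.red₀).2 (C.ci.res _ _ hX), RP.isInt_of_isIntegral _ _ hφ⟩
  obtain ⟨θ, hθ⟩ := exists_BT_of_mem_RC A hM hp hpM hA j hmem
  refine ⟨θ, ?_⟩
  rw [map_sub]
  exact hX.sub_lt H.red hθ

/-- **Artin-Schreier lift, one valuation at a time.**  `Y ∈ F`, `|Y|_j ≤ 1`, `|Y^n - Y - b|_j < 1` with `b ∈ B_t(ℚ̄)` of sup norm `≤ 1`: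
then `|Y - θ|_j < 1` for some inertia-fixed `θ ∈ BT`.  (FALSE for both valuations at once.) -/
theorem asLift (j : I2) {n : ℕ} (hn : 2 ≤ n) {Y b : FN (M₁ * p)}
    (hY : vG A (M₁ * p) (wj (wq M₁ p) j Y) ≤ 1) (hb : IsInt Qb (tQ M₁ p) b)
    (hb1 : vG A (M₁ * p) b ≤ 1) (hb2 : vG A (M₁ * p) (wq M₁ p b) ≤ 1)
    (h : vG A (M₁ * p) (wj (wq M₁ p) j (Y ^ n - Y - b)) < 1) :
    ∃ θ : BT M₁ p A,
      vG A (M₁ * p) (wj (wq M₁ p) j (Y - ((θ : EC A (M₁ * p)) : FN (M₁ * p)))) < 1 := by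
  have H := lvl A M₁ p hp hpM
  obtain ⟨φ, hφ⟩ := T1.exists_rd (ρ := rho A (M₁ * p)) hY
  have hbj : vG A (M₁ * p) (wj (wq M₁ p) j b) ≤ 1 := by
    rcases I2_cases j with rfl | rfl
    · exact hb1
    · exact hb2
  obtain ⟨β, hβ⟩ := T1.exists_rd (ρ := rho A (M₁ * p)) hbj
  have hβR := rd_mem_RC A hM hp hpM hA j hb hb1 hb2 hβ
  have h0 : φ ^ n - φ - β = 0 := by
    have h1 := ((hφ.pow n).sub hφ).sub hβ
    rw [← map_pow, ← map_sub, ← map_sub] at h1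
    exact h1.unique ((T1.rd_zero_iff H.red).2 h)
  refine exists_BT_of_isIntegral A hM hp hpM hA j hφ ?_
  refine ⟨X ^ n - (X + C (⟨β, hβR⟩ : RP.RC A M₁)), ?_, ?_⟩
  · have hd : (X + C (⟨β, hβR⟩ : RP.RC A M₁) : (RP.RC A M₁)[X]).degree < ((n : ℕ) : WithBot ℕ) := by
      refine lt_of_le_of_lt (degree_X_add_C _).le ?_
      exact_mod_cast (by omega : 1 < n)
    exact monic_X_pow_sub hd
  · simp only [eval₂_sub, eval₂_add, eval₂_pow, eval₂_X, eval₂_C]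
    rw [← sub_sub]
    exact h0

end Fermat.Agent.MR.TH
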