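import Fermat.Agent.MR.TH.KRat
import Fermat.Agent.CAR.CNT.NumM
import Fermat.Agent.CAR.RP.Conc
import Fermat.Agent.CAR.RP.Colen

/-!
# MR / TH / Cnt : [CNT2]  `12 e₀ · colen I₀ ≤ colen (H)` at level `M₁ p`

`I₀ ⊆ R' = RC A M₁` any ideal containing the reductions `φ` of the inertia-fixed `z ∈ F = FN (M₁ p)`, integral over `ℚ̄[t]`,
with `(red z, red (w z)) = (φ, 0)`; `H ∈ R'` of order `-(p - 1) m`, `m = mX M₁ = e₀ ψ(M₁)`.
-/

set_option autoImplicit false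

open ModularCurve AlgebraicCurve Polynomial

noncomputable section

namespace Fermat.Agent.MR.TH

open Fermat.Agent.GR Fermat.Agent.GAL Fermat.Agent.GAL.KL Fermat.Agent.GAL.KLC Fermat.Agent.S24
open Fermat.Agent.GR.HeckeField Fermat.Agent.TOR.GB Fermat.Agent.TOR Fermat.Agent.TOR.T1C
open Fermat.Agent.CAR Fermat.Agent.CAR.CNT Fermat.Agent.CAR.RP

/-- linear algebra: if any `d + 1` vectors are dependent modulo `W` then `dim V/W ≤ d`. -/
theorem cnt_finrank_quot_le {k V : Type*} [Field k] [AddCommGroup V] [Module k V] (W : Submodule k V)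
    (d : ℕ) (h : ∀ φ : Fin (d + 1) → V, ∃ c : Fin (d + 1) → k, c ≠ 0 ∧ ∑ i, c i • φ i ∈ W) :
    Module.Finite k (V ⧸ W) ∧ Module.finrank k (V ⧸ W) ≤ d := by
  have hr : Module.rank k (V ⧸ W) ≤ d := by
    apply rank_le
    intro s hs
    by_contra hlt
    rw [not_le] at hlt
    obtain ⟨t, hts, htc⟩ := Finset.exists_subset_card_eq (s := s) (n := d + 1) hlt
    have ht : LinearIndependent k (fun i : t => (i : V ⧸ W)) :=
      hs.comp (fun i : t => (⟨i.1, hts i.2⟩ : s)) (fun a b hab => Subtype.ext (by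
        have := congrArg (fun x : s => (x : V ⧸ W)) hab
        exact this))
    let e : Fin (d + 1) ≃ t := (Fintype.equivFinOfCardEq (by rw [Fintype.card_coe, htc])).symm
    have ht' : LinearIndependent k (fun i : Fin (d + 1) => ((e i : t) : V ⧸ W)) :=
      ht.comp e e.injective
    choose φ hφ using fun i : Fin (d + 1) => Submodule.Quotient.mk_surjective W ((e i : t) : V ⧸ W)
    obtain ⟨c, hc0, hc⟩ := h φ
    apply hc0
    rw [Fintype.linearIndependent_iff] at ht'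
    funext i
    apply ht' c
    have h0 : W.mkQ (∑ i, c i • φ i) = 0 := (Submodule.Quotient.mk_eq_zero W).2 hc
    rw [← h0, map_sum]
    refine Finset.sum_congr rfl fun i _ => ?_
    rw [map_smul]
    exact congrArg (c i • ·) (hφ i).symm
  have hfin : Module.Finite k (V ⧸ W) :=
    Module.rank_lt_aleph0_iff.1 (lt_of_le_of_lt hr Cardinal.natCast_lt_aleph0)
  refine ⟨hfin, ?_⟩
  rw [← Module.finrank_eq_rank] at hr
  exact_mod_cast hr

variable (M₁ p : ℕ) [NeZero M₁] [NeZero p]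

/-- the elements of `k((Q))` which are the reduction at `∞` of an inertia-fixed element of the chart ring vanishing on the component `0`. -/
def ISigK (A : ValuationSubring Qb) (φ : LaurentSeries (kA A)) : Prop :=
  ∃ z : FN (M₁ * p), (∀ τ ∈ A.inertiaSubgroupIn ℚ, galF (M₁ * p) τ z = z) ∧
    IsInt Qb (tQ M₁ p) z ∧ HasRed A (z : LaurentSeries Qb) φ ∧
    HasRed A ((wq M₁ p z : FN (M₁ * p)) : LaurentSeries Qb) 0

variable {M₁ p}

theorem iSigK_of_iSig (hM : AdmLevel M₁) (hp : p.Prime) (hpM : ¬ p ∣ M₁)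
    (A : ValuationSubring Qb) (hA : A.LiesOverPrime p) {φ : LaurentSeries (kA A)}
    (h : ISig (rho A (M₁ * p)) (wq M₁ p) (tQ M₁ p) φ) : ISigK M₁ p A φ := by
  obtain ⟨z, hz, h1, h2⟩ := h
  exact exists_fixed_lift2 M₁ p hM hp hpM A hA hz ((rd_iff _ _).1 h1)
    ((rd_iff _ _).1 ((T1.rd_zero_iff (isRed A (M₁ * p))).2 h2))

omit [NeZero M₁] in
theorem coe_sum_smul_RC (A : ValuationSubring Qb) {ι : Type*} (s : Finset ι) (c : ι → kA A)
    (φ : ι → RC A M₁) :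
    ((∑ i ∈ s, c i • φ i : RC A M₁) : LaurentSeries (kA A))
      = ∑ i ∈ s, c i • (φ i : LaurentSeries (kA A)) := by
  rw [AddSubmonoidClass.coe_finsetSum]
  refine Finset.sum_congr rfl fun i _ => ?_
  rw [DimD3_coe_smul, smul_eq_algebraMap_mul]

/-- **[CNT2], plain form**: `colen I₀ ≤ d₀ = g(M₁ p) - 2 g(M₁) + 1`. -/
theorem colen_le_d0 (hM : AdmLevel M₁) (hp : p.Prime) (hpM : ¬ p ∣ M₁)
    (A : ValuationSubring Qb) (hA : A.LiesOverPrime p) {d₀ : ℕ}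
    (hd : d₀ + 2 * gS M₁ = gS (M₁ * p) + 1) (I₀ : Ideal (RC A M₁))
    (hI : ∀ φ : RC A M₁, ISigK M₁ p A (φ : LaurentSeries (kA A)) → φ ∈ I₀) :
    Module.Finite (kA A) (RC A M₁ ⧸ I₀) ∧ colen (kA A) I₀ ≤ d₀ := by
  have key : ∀ φ : Fin (d₀ + 1) → RC A M₁, ∃ c : Fin (d₀ + 1) → kA A, c ≠ 0 ∧
      ∑ i, c i • φ i ∈ I₀.restrictScalars (kA A) := by
    intro φ
    obtain ⟨c, hc0, hc⟩ := cnt M₁ p hM hp hpM A hA hd (fun i => (φ i : LaurentSeries (kA A)))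
      (fun i => ⟨(φ i).2.2, by
        obtain ⟨z, hz⟩ := (CTV.mem_Fbar _).1 (φ i).2.1
        exact ⟨z.1, z.2, hz⟩⟩)
    refine ⟨c, hc0, hI _ ?_⟩
    rw [coe_sum_smul_RC]
    exact iSigK_of_iSig hM hp hpM A hA hc
  exact cnt_finrank_quot_le (I₀.restrictScalars (kA A)) d₀ key

/-- **[CNT2]**: `12 e₀ · colen I₀ ≤ colen (H)` (hypothesis `hc` of `RP.span_eq_pow_of_colen_le`, `RP.not_mem_of_pow_eq_mul`
with `N = 12 e₀`). -/
theorem cnt2 (hM : AdmLevel M₁) (hp : p.Prime) (hpM : ¬ p ∣ M₁)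
    (A : ValuationSubring Qb) (hA : A.LiesOverPrime p) (I₀ : Ideal (RC A M₁))
    (hI : ∀ φ : RC A M₁, ISigK M₁ p A (φ : LaurentSeries (kA A)) → φ ∈ I₀)
    (H : RC A M₁) (hH : (H : LaurentSeries (kA A)).order = -(((p - 1) * mX M₁ : ℕ) : ℤ)) :
    Module.Finite (kA A) (RC A M₁ ⧸ I₀) ∧
      12 * e0 M₁ * colen (kA A) I₀ ≤ colen (kA A) (Ideal.span {H}) := by
  obtain ⟨d₀, hd, h12, -⟩ := exists_d0 M₁ p hM hp hpM
  obtain ⟨hfin, hle⟩ := colen_le_d0 hM hp hpM A hA hd I₀ hI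
  refine ⟨hfin, ?_⟩
  have hH0 : H ≠ 0 := by
    rintro rfl
    rw [ZeroMemClass.coe_zero, HahnSeries.order_zero] at hH
    have h1 : 0 < (p - 1) * mX M₁ := Nat.mul_pos (by have := hp.two_le; omega) (mX_pos M₁)
    omega
  have h1 := colen_span_RC M₁ p hM hp hpM A hA H hH0
  rw [hH, neg_neg] at h1
  have h2 : colen (kA A) (Ideal.span {H}) = (p - 1) * mX M₁ := by exact_mod_cast h1
  rw [h2, mX_eq]
  calc 12 * e0 M₁ * colen (kA A) I₀ ≤ 12 * e0 M₁ * d₀ := Nat.mul_le_mul_left _ hle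
    _ = e0 M₁ * (12 * d₀) := by ring
    _ = (p - 1) * (e0 M₁ * dedekindPsi M₁) := by rw [h12]; ring

/-- `I₀ ≠ 0`. -/
theorem I0_ne_bot (hM : AdmLevel M₁) (hp : p.Prime) (hpM : ¬ p ∣ M₁)
    (A : ValuationSubring Qb) (hA : A.LiesOverPrime p) (I₀ : Ideal (RC A M₁))
    (hI : ∀ φ : RC A M₁, ISigK M₁ p A (φ : LaurentSeries (kA A)) → φ ∈ I₀) : I₀ ≠ ⊥ := by
  rintro rfl
  obtain ⟨d₀, hd, -, -⟩ := exists_d0 M₁ p hM hp hpM
  obtain ⟨hfin, -⟩ := colen_le_d0 hM hp hpM A hA hd ⊥ hI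
  have hfin' : Module.Finite (kA A) (RC A M₁) :=
    Module.Finite.equiv (AlgEquiv.quotientBot (kA A) (RC A M₁)).toLinearEquiv
  have hx : xR (kA A) M₁ ∈ RC A M₁ := by
    refine ⟨?_, DimD3_isInt_self _⟩
    rw [← rho_xF M₁ A]
    exact CTV.rho_mem_Fbar _ _
  have h1 : IsAlgebraic (kA A) (⟨xR (kA A) M₁, hx⟩ : RC A M₁) :=
    (Algebra.IsIntegral.of_finite (kA A) (RC A M₁)).isIntegral _ |>.isAlgebraic
  have h2 : IsAlgebraic (kA A) (xR (kA A) M₁) := h1.algHom (RC A M₁).val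
  exact CTV.transcendental_of_order_neg _ (by
    rw [order_xR]; have := mX_pos M₁; omega) h2

end Fermat.Agent.MR.TH
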