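import Fermat.Agent.MR.TH.BL2

/-!
# MR / TH / KRat : inertia-fixed lifts for BOTH valuations `v_∞`, `v_0 = v_∞ ∘ w` at level `M₁ p`
-/

set_option autoImplicit false

open ModularCurve AlgebraicCurve Polynomial

noncomputable section

namespace Fermat.Agent.MR.TH

open Fermat.Agent.GR Fermat.Agent.GAL Fermat.Agent.GAL.KL Fermat.Agent.GAL.KLC Fermat.Agent.S24
open Fermat.Agent.GR.HeckeField Fermat.Agent.TOR.GB Fermat.Agent.TOR Fermat.Agent.TOR.T1C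
open Fermat.Agent.CAR Fermat.Agent.CAR.CNT Fermat.Agent.CAR.BK

/-- interleaving of two series: even coefficients from `a`, odd ones from `b`. -/
def ilv (a b : LaurentSeries Qb) : LaurentSeries Qb :=
  qExpand Qb 2 a + HahnSeries.single 1 1 * qExpand Qb 2 b

theorem ilv_coeff_even (a b : LaurentSeries Qb) (k : ℤ) : (ilv a b).coeff (2 * k) = a.coeff k := by
  unfold ilv
  rw [HahnSeries.coeff_add]
  have h1 : (qExpand Qb 2 a).coeff (2 * k) = a.coeff k := qExpand_coeff_mul 2 a k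
  have h2 : (HahnSeries.single (1 : ℤ) (1 : Qb) * qExpand Qb 2 b).coeff (2 * k) = 0 := by
    have e : (2 * k : ℤ) = (2 * k - 1) + 1 := by ring
    rw [e, HahnSeries.coeff_single_mul_add, one_mul]
    exact qExpand_coeff_of_not_dvd 2 b (by
      intro h
      have : ((2 : ℕ) : ℤ) = 2 := rfl
      rw [this] at h
      omega)
  rw [h1, h2, add_zero]

theorem ilv_coeff_odd (a b : LaurentSeries Qb) (k : ℤ) :
    (ilv a b).coeff (2 * k + 1) = b.coeff k := by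
  unfold ilv
  rw [HahnSeries.coeff_add, HahnSeries.coeff_single_mul_add, one_mul]
  have h1 : (qExpand Qb 2 b).coeff (2 * k) = b.coeff k := qExpand_coeff_mul 2 b k
  have h2 : (qExpand Qb 2 a).coeff (2 * k + 1) = 0 :=
    qExpand_coeff_of_not_dvd 2 a (by
      intro h
      have : ((2 : ℕ) : ℤ) = 2 := rfl
      rw [this] at h
      omega)
  rw [h1, h2, zero_add]

theorem ilv_cases (P : ℤ → Prop) (h0 : ∀ k, P (2 * k)) (h1 : ∀ k, P (2 * k + 1)) (n : ℤ) : P n := by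
  rcases Int.even_or_odd' n with ⟨k, rfl | rfl⟩
  · exact h0 k
  · exact h1 k

theorem ilv_add (a b a' b' : LaurentSeries Qb) : ilv (a + a') (b + b') = ilv a b + ilv a' b' := by
  unfold ilv
  rw [map_add, map_add]
  ring

theorem ilv_smul (c : Qb) (a b : LaurentSeries Qb) : ilv (c • a) (c • b) = c • ilv a b := by
  ext n
  revert n
  apply ilv_cases
  · intro k
    rw [HahnSeries.coeff_smul, ilv_coeff_even, ilv_coeff_even, HahnSeries.coeff_smul]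
  · intro k
    rw [HahnSeries.coeff_smul, ilv_coeff_odd, ilv_coeff_odd, HahnSeries.coeff_smul]

theorem galS_ilv (τ : GQ) (a b : LaurentSeries Qb) :
    galS τ (ilv a b) = ilv (galS τ a) (galS τ b) := by
  ext n
  revert n
  apply ilv_cases
  · intro k
    rw [DSC.galS_coeff, ilv_coeff_even, ilv_coeff_even, DSC.galS_coeff]
  · intro k
    rw [DSC.galS_coeff, ilv_coeff_odd, ilv_coeff_odd, DSC.galS_coeff]

variable (M₁ p : ℕ) [NeZero M₁] [NeZero p]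

theorem galF_tQ (σ : GQ) : galF (M₁ * p) σ (tQ M₁ p) = tQ M₁ p := by
  show galF (M₁ * p) σ (alp M₁ p (xF M₁) * bet M₁ p (xF M₁)) = _
  rw [map_mul, galF_alp, galF_bet, Lift_galF_xF]
  rfl

/-- `z ↦ (z, w z)`, interleaved. -/
def ilvL : FN (M₁ * p) →ₗ[Qb] LaurentSeries Qb where
  toFun z := ilv (z : LaurentSeries Qb) ((wq M₁ p z : FN (M₁ * p)) : LaurentSeries Qb)
  map_add' x y := by
    rw [map_add]
    exact ilv_add _ _ _ _
  map_smul' c z := by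
    have hw : wq M₁ p (c • z) = c • wq M₁ p z := (wq M₁ p).toLinearEquiv.map_smul c z
    rw [hw, RingHom.id_apply, ← ilv_smul]
    exact congrArg₂ ilv ((Lift_incl (M₁ * p)).map_smul c z)
      ((Lift_incl (M₁ * p)).map_smul c (wq M₁ p z))

theorem ilvL_apply (z : FN (M₁ * p)) : ilvL M₁ p z
    = ilv (z : LaurentSeries Qb) ((wq M₁ p z : FN (M₁ * p)) : LaurentSeries Qb) := rfl

theorem ilvL_injective : Function.Injective (ilvL M₁ p) := by
  intro x y h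
  apply Subtype.ext
  ext k
  have := congrArg (fun f => HahnSeries.coeff f (2 * k)) h
  simpa only [ilvL_apply, ilv_coeff_even] using this

/-- a series with coefficients in `A` and nonzero reduction has a unit coefficient. -/
theorem krat_unit_coeff (A : ValuationSubring Qb) {x : LaurentSeries Qb}
    (hx : ∀ n, x.coeff n ∈ A) {zb : LaurentSeries (kA A)} (hzb : zb ≠ 0) (h : HasRed A x zb) :
    ∃ n₀, x.coeff n₀ ≠ 0 ∧ (x.coeff n₀)⁻¹ ∈ A := by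
  obtain ⟨y, hy⟩ := exists_int_of_coeff_mem A _ hx
  rw [← hy] at h
  have hyb := h.eq_of_int
  have hne : coeffMap (IsLocalRing.residue A) y ≠ 0 := by rw [hyb]; exact hzb
  obtain ⟨n₀, hn₀⟩ : ∃ n₀, (coeffMap (IsLocalRing.residue A) y).coeff n₀ ≠ 0 := by
    by_contra hcon
    push Not at hcon
    exact hne (HahnSeries.ext (funext hcon))
  rw [coeffMap_coeff, Ne, IsLocalRing.residue_eq_zero_iff, IsLocalRing.mem_maximalIdeal,
    mem_nonunits_iff, not_not] at hn₀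
  have hyc : ((y.coeff n₀ : A) : Qb) = x.coeff n₀ := by
    rw [← hy, coeffMap_coeff]
    rfl
  obtain ⟨w, hw⟩ := hn₀
  have hw1 : ((w⁻¹ : Aˣ) : A) * y.coeff n₀ = 1 := by rw [← hw]; simp
  have hw2 : (((w⁻¹ : Aˣ) : A) : Qb) * x.coeff n₀ = 1 := by
    rw [← hyc]
    exact congrArg Subtype.val hw1
  refine ⟨n₀, fun h0 => ?_, ?_⟩
  · rw [h0, mul_zero] at hw2
    exact zero_ne_one hw2
  · rw [← eq_inv_of_mul_eq_one_left hw2]
    exact ((w⁻¹ : Aˣ) : A).2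

variable {M₁ p}

theorem isInt_wq (hp : p.Prime) (hpM : ¬ p ∣ M₁) (A : ValuationSubring Qb) {z : FN (M₁ * p)}
    (hz : IsInt Qb (tQ M₁ p) z) : IsInt Qb (tQ M₁ p) (wq M₁ p z) :=
  T1.isInt_w (T1.w_tt (lvl A M₁ p hp hpM) (xF M₁)) hz

theorem ilvL_coeff_mem (hM : AdmLevel M₁) (hp : p.Prime) (hpM : ¬ p ∣ M₁)
    (A : ValuationSubring Qb) (hA : A.LiesOverPrime p) {z : FN (M₁ * p)}
    (hz : IsInt Qb (tQ M₁ p) z) (hv1 : vG A (M₁ * p) z ≤ 1)
    (hv2 : vG A (M₁ * p) (wq M₁ p z) ≤ 1) : ∀ n, (ilvL M₁ p z).coeff n ∈ A := by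
  apply ilv_cases
  · intro k
    rw [ilvL_apply, ilv_coeff_even]
    exact coeff_mem_of_isInt2 hM hp hpM A hA hz hv1 hv2 k
  · intro k
    rw [ilvL_apply, ilv_coeff_odd]
    exact coeff_mem_of_isInt2 hM hp hpM A hA (isInt_wq hp hpM A hz) hv2 (by rw [wq_wq hp hpM]; exact hv1) k

theorem coe_smul_FN (N : ℕ) (c : Qb) (z : FN N) :
    ((c • z : FN N) : LaurentSeries Qb) = HahnSeries.C c * (z : LaurentSeries Qb) := by
  rw [HahnSeries.C_mul_eq_smul]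
  exact (Lift_incl N).map_smul c z

/-- normalisation for the norm `max (v, v ∘ w)`. -/
theorem exists_norm2 (A : ValuationSubring Qb) {z : FN (M₁ * p)} (hz0 : z ≠ 0) :
    ∃ c : Qb, c ≠ 0 ∧ vG A (M₁ * p) (c • z) ≤ 1 ∧ vG A (M₁ * p) (wq M₁ p (c • z)) ≤ 1 ∧
      ((∃ zb : LaurentSeries (kA A), zb ≠ 0 ∧ HasRed A ((c • z : FN (M₁ * p)) : LaurentSeries Qb) zb) ∨
       (∃ zb : LaurentSeries (kA A), zb ≠ 0 ∧
          HasRed A ((wq M₁ p (c • z) : FN (M₁ * p)) : LaurentSeries Qb) zb)) := by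
  have hw : ∀ c : Qb, wq M₁ p (c • z) = c • wq M₁ p z := fun c =>
    (wq M₁ p).toLinearEquiv.map_smul c z
  have hz' : (z : LaurentSeries Qb) ≠ 0 := fun h => hz0 (Subtype.ext h)
  have hwz0 : wq M₁ p z ≠ 0 := fun h => hz0 (by simpa using h)
  have hwz' : ((wq M₁ p z : FN (M₁ * p)) : LaurentSeries Qb) ≠ 0 := fun h => hwz0 (Subtype.ext h)
  obtain ⟨c₁, hc₁, zb₁, hzb₁, h₁⟩ := exists_hasRed_C_mul_of_mem_FL A (M₁ * p) z.2 hz'
  obtain ⟨c₂, hc₂, zb₂, hzb₂, h₂⟩ := exists_hasRed_C_mul_of_mem_FL A (M₁ * p) (wq M₁ p z).2 hwz'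
  rcases A.mem_or_inv_mem (c₁ / c₂) with hc | hc
  · have h3 : HasRed A (HahnSeries.C c₁ * ((wq M₁ p z : FN (M₁ * p)) : LaurentSeries Qb))
        (HahnSeries.C (IsLocalRing.residue A ⟨c₁ / c₂, hc⟩) * zb₂) := by
      have := (hasRed_C (A := A) ⟨c₁ / c₂, hc⟩).mul h₂
      rwa [← mul_assoc, ← map_mul, div_mul_cancel₀ _ hc₂] at this
    refine ⟨c₁, hc₁, (ValThm_le_one_iff A _).2 ⟨zb₁, by rw [coe_smul_FN]; exact h₁⟩,
      (ValThm_le_one_iff A _).2 ⟨_, by rw [hw, coe_smul_FN]; exact h3⟩,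
      Or.inl ⟨zb₁, hzb₁, by rw [coe_smul_FN]; exact h₁⟩⟩
  · rw [inv_div] at hc
    have h3 : HasRed A (HahnSeries.C c₂ * (z : LaurentSeries Qb))
        (HahnSeries.C (IsLocalRing.residue A ⟨c₂ / c₁, hc⟩) * zb₁) := by
      have := (hasRed_C (A := A) ⟨c₂ / c₁, hc⟩).mul h₁
      rwa [← mul_assoc, ← map_mul, div_mul_cancel₀ _ hc₁] at this
    refine ⟨c₂, hc₂, (ValThm_le_one_iff A _).2 ⟨_, by rw [coe_smul_FN]; exact h3⟩,
      (ValThm_le_one_iff A _).2 ⟨zb₂, by rw [hw, coe_smul_FN]; exact h₂⟩,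
      Or.inr ⟨zb₂, hzb₂, by rw [hw, coe_smul_FN]; exact h₂⟩⟩

theorem ilvL_hmax (hM : AdmLevel M₁) (hp : p.Prime) (hpM : ¬ p ∣ M₁)
    (A : ValuationSubring Qb) (hA : A.LiesOverPrime p) {z : FN (M₁ * p)}
    (hz : IsInt Qb (tQ M₁ p) z) (hz0 : z ≠ 0) :
    ∃ n₀ : ℤ, (ilvL M₁ p z).coeff n₀ ≠ 0 ∧
      ∀ n, (ilvL M₁ p z).coeff n / (ilvL M₁ p z).coeff n₀ ∈ A := by
  obtain ⟨c, hc, hv1, hv2, hor⟩ := exists_norm2 A hz0
  have hzc : IsInt Qb (tQ M₁ p) (c • z) := by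
    rw [Algebra.smul_def]
    exact (IsInt.algebraMap c).mul hz
  have hmem := ilvL_coeff_mem hM hp hpM A hA hzc hv1 hv2
  have hunit : ∃ n₀, (ilvL M₁ p (c • z)).coeff n₀ ≠ 0 ∧ ((ilvL M₁ p (c • z)).coeff n₀)⁻¹ ∈ A := by
    rcases hor with ⟨zb, hzb, h⟩ | ⟨zb, hzb, h⟩
    · obtain ⟨k, hk0, hk⟩ := krat_unit_coeff A (coeff_mem_of_isInt2 hM hp hpM A hA hzc hv1 hv2) hzb h
      exact ⟨2 * k, by rw [ilvL_apply, ilv_coeff_even]; exact hk0,
        by rw [ilvL_apply, ilv_coeff_even]; exact hk⟩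
    · obtain ⟨k, hk0, hk⟩ := krat_unit_coeff A (coeff_mem_of_isInt2 hM hp hpM A hA (isInt_wq hp hpM A hzc)
        hv2 (by rw [wq_wq hp hpM]; exact hv1)) hzb h
      exact ⟨2 * k + 1, by rw [ilvL_apply, ilv_coeff_odd]; exact hk0,
        by rw [ilvL_apply, ilv_coeff_odd]; exact hk⟩
  obtain ⟨n₀, hn0, hn⟩ := hunit
  have hcoe : ∀ n, (ilvL M₁ p (c • z)).coeff n = c * (ilvL M₁ p z).coeff n := by
    intro n
    rw [map_smul, HahnSeries.coeff_smul, smul_eq_mul]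
  refine ⟨n₀, fun h0 => hn0 (by rw [hcoe, h0, mul_zero]), fun n => ?_⟩
  have h3 : (ilvL M₁ p z).coeff n / (ilvL M₁ p z).coeff n₀
      = (ilvL M₁ p (c • z)).coeff n * ((ilvL M₁ p (c • z)).coeff n₀)⁻¹ := by
    rw [hcoe, hcoe, ← div_eq_mul_inv, mul_div_mul_left _ _ hc]
  rw [h3]
  exact A.mul_mem _ _ (hmem n) hn

theorem ilvL_galF (hp : p.Prime) (hpM : ¬ p ∣ M₁) (τ : GQ) (z : FN (M₁ * p)) :
    ilvL M₁ p (galF (M₁ * p) τ z) = galS τ (ilvL M₁ p z) := by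
  rw [ilvL_apply, ilvL_apply, galS_ilv, wq_galF hp hpM, coe_galF, coe_galF]

variable (M₁ p)

/-- **K-rationality.**  `z` integral over `ℚ̄[t]`, `(red z, red (w z)) = (φ, ψ)` ⟹ the same for some `z'` fixed by inertia.
PROOF (idea of helper21).  Apply `BK.exists_fixed_congr` to the interleaved image `V := {S z | z ∈ LL ℚ̄ t a}`,
`S z := qExpand 2 z + Q * qExpand 2 (w z)` (even coefficients: those of `z`, odd ones: those of `w z`). -/
theorem exists_fixed_lift2 (hM : AdmLevel M₁) (hp : p.Prime) (hpM : ¬ p ∣ M₁)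
    (A : ValuationSubring Qb) (hA : A.LiesOverPrime p) {z : FN (M₁ * p)}
    (hz : IsInt Qb (tQ M₁ p) z) {φ ψ : LaurentSeries (kA A)}
    (h1 : HasRed A (z : LaurentSeries Qb) φ)
    (h2 : HasRed A ((wq M₁ p z : FN (M₁ * p)) : LaurentSeries Qb) ψ) :
    ∃ z' : FN (M₁ * p), (∀ τ ∈ A.inertiaSubgroupIn ℚ, galF (M₁ * p) τ z' = z') ∧
      IsInt Qb (tQ M₁ p) z' ∧ HasRed A (z' : LaurentSeries Qb) φ ∧
      HasRed A ((wq M₁ p z' : FN (M₁ * p)) : LaurentSeries Qb) ψ := by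
  have H := lvl A M₁ p hp hpM
  have X := xDat M₁ p hp A hA (spansStatement M₁) (riStatement M₁) (ctStatement M₁ p hM hp hpM A hA)
  have htr : Transcendental Qb (tQ M₁ p) := T1.transcendental_tt H X
  have hu0 : tQ M₁ p ≠ 0 := fun h0 => htr (h0 ▸ isAlgebraic_zero)
  obtain ⟨a, ha⟩ : ∃ a : ℕ, z ∈ LL Qb (tQ M₁ p) a := by
    have hz' : IsInt Qb ((tQ M₁ p)⁻¹)⁻¹ z := by rwa [inv_inv]
    obtain ⟨m₀, hm₀⟩ := IsInt.shift (inv_ne_zero hu0) hz'
    exact ⟨m₀, hz, hm₀ m₀ le_rfl⟩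
  have hfin : FiniteDimensional Qb (LL Qb (tQ M₁ p) a) := by
    rw [LL_eq_L htr a]
    infer_instance
  have hfix := galF_tQ M₁ p
  have hfixi : ∀ σ : GQ, galF (M₁ * p) σ (tQ M₁ p)⁻¹ = (tQ M₁ p)⁻¹ := fun σ => by
    rw [map_inv₀, hfix]
  have hstab : ∀ (τ : GQ) (w : FN (M₁ * p)), w ∈ LL Qb (tQ M₁ p) a →
      galF (M₁ * p) τ w ∈ LL Qb (tQ M₁ p) a := by
    intro τ w hw
    refine ⟨isInt_galF (M₁ * p) τ (hfix τ) hw.1, ?_⟩
    have := isInt_galF (M₁ * p) τ (hfixi τ) hw.2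
    rwa [map_mul, map_pow, hfixi] at this
  have hv1 : vG A (M₁ * p) z ≤ 1 := (ValThm_le_one_iff A _).2 ⟨φ, h1⟩
  have hv2 : vG A (M₁ * p) (wq M₁ p z) ≤ 1 := (ValThm_le_one_iff A _).2 ⟨ψ, h2⟩
  obtain ⟨c', hc'V, hc'fix, -, hc'cong⟩ := exists_fixed_congr hp A hA
    ((LL Qb (tQ M₁ p) a).map (ilvL M₁ p))
    (by
      rintro τ - _ ⟨w, hw, rfl⟩
      exact ⟨galF (M₁ * p) τ w, hstab τ w hw, ilvL_galF hp hpM τ w⟩)
    (by
      rintro _ ⟨w, hw, rfl⟩ hw0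
      exact ilvL_hmax hM hp hpM A hA hw.1 (fun e => hw0 (by rw [e, map_zero])))
    (c := ilvL M₁ p z) ⟨z, ha, rfl⟩ (ilvL_coeff_mem hM hp hpM A hA hz hv1 hv2)
  obtain ⟨z', hz', rfl⟩ := hc'V
  refine ⟨z', fun τ hτ => ilvL_injective M₁ p ?_, hz'.1, ?_, ?_⟩
  · rw [ilvL_galF hp hpM]
    exact hc'fix τ hτ
  · have h3 : HasRed A ((z : LaurentSeries Qb) - (z' : LaurentSeries Qb)) 0 :=
      Lift_hasRed_zero fun n => by
        have := hc'cong (2 * n)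
        rw [ilvL_apply, ilvL_apply, ilv_coeff_even, ilv_coeff_even] at this
        rw [HahnSeries.coeff_sub]
        exact this
    have h4 := ORD.P2.hasRed_sub' h1 h3
    rwa [sub_sub_cancel, sub_zero] at h4
  · have h3 : HasRed A (((wq M₁ p z : FN (M₁ * p)) : LaurentSeries Qb)
        - ((wq M₁ p z' : FN (M₁ * p)) : LaurentSeries Qb)) 0 :=
      Lift_hasRed_zero fun n => by
        have := hc'cong (2 * n + 1)
        rw [ilvL_apply, ilvL_apply, ilv_coeff_odd, ilv_coeff_odd] at this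
        rw [HahnSeries.coeff_sub]
        exact this
    have h4 := ORD.P2.hasRed_sub' h2 h3
    rwa [sub_sub_cancel, sub_zero] at h4

end Fermat.Agent.MR.TH
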