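import Fermat.Agent.MR.TH.XT
import Fermat.Agent.MR.TH.KRat
import Fermat.Agent.CAR.CNT.NumM

/-!
# MR / TH / Col : the colength inequality `n · colen I₀ ≤ colen (H)`, `I₀ = r_∞(p_0)`, `n = 12 e₀`   (package MR-TH-6)
-/

set_option autoImplicit false

open ModularCurve AlgebraicCurve Polynomial

noncomputable section

namespace Fermat.Agent.MR.TH

open Fermat.Agent.GR Fermat.Agent.GAL Fermat.Agent.GAL.KL Fermat.Agent.GAL.KLC Fermat.Agent.S24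
open Fermat.Agent.GR.HeckeField Fermat.Agent.TOR Fermat.Agent.TOR.GB Fermat.Agent.TOR.T1C
open Fermat.Agent.CAR Fermat.Agent.CAR.BK Fermat.Agent.CAR.ON Fermat.Agent.CAR.CNT
open Fermat.Agent.CAR.DESC

/-- abstract linear algebra: if among any `d + 1` elements of `R` some nontrivial combination lies in `I`, then `colen I ≤ d`. -/
theorem Col_colen_le {k R : Type*} [Field k] [CommRing R] [Algebra k R] (I : Ideal R) (d : ℕ)
    (h : ∀ φ : Fin (d + 1) → R, ∃ c : Fin (d + 1) → k, c ≠ 0 ∧ ∑ i, c i • φ i ∈ I) :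
    RP.colen k I ≤ d := by
  by_contra hlt
  have h1 : d + 1 ≤ Module.finrank k (R ⧸ I) := not_le.1 hlt
  obtain ⟨f, hf⟩ := exists_linearIndependent_of_le_finrank h1
  choose φ hφ using fun i => Ideal.Quotient.mk_surjective (f i)
  obtain ⟨c, hc, h2⟩ := h φ
  have h3 : ∑ i, c i • f i = 0 := by
    have h4 : Ideal.Quotient.mkₐ k I (∑ i, c i • φ i) = 0 := Ideal.Quotient.eq_zero_iff_mem.2 h2
    rw [map_sum] at h4
    rw [← h4]
    refine Finset.sum_congr rfl fun i _ => ?_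
    rw [map_smul, ← hφ i]
    rfl
  exact hc (funext (Fintype.linearIndependent_iff.1 hf c h3))

variable {M₁ p : ℕ} [NeZero M₁] [NeZero p] (A : ValuationSubring Qb)
  (hM : AdmLevel M₁) (hp : p.Prime) (hpM : ¬ p ∣ M₁) (hA : A.LiesOverPrime p)
include hM hp hpM hA

/-- the ideal `I₀ = r_∞(p_0)` of `R' = RC A M₁`. -/
def I0 : Ideal (RP.RC A M₁) := (pT M₁ p A zr).map (rT A hM hp hpM hA oo)

/-- **`I_Σ(ℚ̄) ⊆ I₀`.**
PROOF.  `h = ⟨z, hz, h1, h2⟩`; `h2` gives `Rd ρ (wq z) 0` (`T1.rd_zero_iff (isRed ..)`); `exists_fixed_lift2 M₁ p hM hp hpM A hA hz (rd_iff.1 h1) (rd_iff.1 ..)` gives `z'` fixed by inertia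
(`mem_EC_iff_galF`), integral, with the same two reductions.  `b := ⟨⟨z', _⟩, mem_B2.2 ⟨_, _, _⟩⟩ : BT`, `b ∈ pT zr` (`T1.rd_zero_iff`), `rT oo b = φ` (`Subtype.ext`, `(rd_rT ..).unique`).
`Ideal.mem_map_of_mem`. -/
theorem mem_I0_of_ISig {φ : RP.RC A M₁}
    (h : ISig (rho A (M₁ * p)) (wq M₁ p) (tQ M₁ p) (φ : LaurentSeries (kA A))) :
    φ ∈ I0 A hM hp hpM hA := by
  obtain ⟨z, hz, h1, h2⟩ := h
  have h2' : T1.Rd (rho A (M₁ * p)) (wq M₁ p z) 0 := (T1.rd_zero_iff (isRed A (M₁ * p))).2 h2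
  obtain ⟨z', hfix, hint, hr1, hr2⟩ := exists_fixed_lift2 M₁ p hM hp hpM A hA hz
    ((rd_iff _ A).1 h1) ((rd_iff _ A).1 h2')
  have hE : z' ∈ EC A (M₁ * p) := (mem_EC_iff_galF A).2 hfix
  have hr1' : T1.Rd (rho A (M₁ * p)) z' (φ : LaurentSeries (kA A)) := (rd_iff _ A).2 hr1
  have hr2' : T1.Rd (rho A (M₁ * p)) (wq M₁ p z') 0 := (rd_iff _ A).2 hr2
  let b : BT M₁ p A := ⟨⟨z', hE⟩, mem_B2.2 ⟨hint, hr1'.le_one, hr2'.le_one⟩⟩
  have hb : b ∈ pT M₁ p A zr := (T1.rd_zero_iff (isRed A (M₁ * p))).1 hr2'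
  have hφ : rT A hM hp hpM hA oo b = φ := Subtype.ext ((rd_rT A hM hp hpM hA oo b).unique hr1')
  rw [← hφ]
  exact Ideal.mem_map_of_mem _ hb

/-- **`colen I₀ ≤ d₀`.**
PROOF.  Otherwise `d₀ + 1 ≤ finrank (R' ⧸ I₀)`: `exists_linearIndependent_of_le_finrank` (Mathlib; or `Module.exists_finset_linearIndependent_of_le_finrank`) gives `f : Fin (d₀+1) → R' ⧸ I₀` linearly independent over `kA A`;
lift `f i = mk (φ i)` (`Ideal.Quotient.mk_surjective`).  `CNT.cnt M₁ p hM hp hpM A hA hd (fun i => (φ i : LaurentSeries _)) hφ` (`hφ` from `RP.mem_RR`, `BK.mem_Fbar_iff`) gives `c ≠ 0` with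
`ISig (∑ c i • φ i)`; `mem_I0_of_ISig` (the sum is the coercion of `∑ c i • φ i : R'`; NB the `kA A`-module structure of `LaurentSeries` used by `cnt` is the `HahnSeries` one, that of the subalgebra `RC` is the algebra one:
`RP.smul_eq_algebraMap_mul`, `Algebra.smul_def`) gives `∑ c i • f i = 0`: contradiction (`Fintype.linearIndependent_iff`). -/
theorem colen_I0_le {d₀ : ℕ} (hd : d₀ + 2 * gS M₁ = gS (M₁ * p) + 1) :
    RP.colen (kA A) (I0 A hM hp hpM hA) ≤ d₀ := by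
  apply Col_colen_le
  intro φ
  obtain ⟨c, hc, hI⟩ := CNT.cnt M₁ p hM hp hpM A hA hd
    (fun i => ((φ i : RP.RC A M₁) : LaurentSeries (kA A)))
    (fun i => ⟨(RP.mem_RR.1 (φ i).2).2, (BK.mem_Fbar_iff _).1 (RP.mem_RR.1 (φ i).2).1⟩)
  have e : (∑ i, c i • ((φ i : RP.RC A M₁) : LaurentSeries (kA A)))
      = ((∑ i, c i • φ i : RP.RC A M₁) : LaurentSeries (kA A)) := by
    rw [AddSubmonoidClass.coe_finsetSum]
    refine Finset.sum_congr rfl fun i _ => ?_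
    rw [RP.smul_eq_algebraMap_mul, Algebra.smul_def]
    rfl
  rw [e] at hI
  exact ⟨c, hc, mem_I0_of_ISig A hM hp hpM hA hI⟩

/-- **the colength inequality.**
PROOF.  `CNT.exists_d0 M₁ p hM hp hpM` gives `d₀`, `hd`, `12 d₀ = (p-1) ψ(M₁)`.  `RP.colen_span_RC M₁ p hM hp hpM A hA (rT oo XT) (ne)`: `colen (H) = - order H`; `rT_XT`, `TH1.order_XR`:
`order H = -((p-1) mX M₁)`; `CNT.mX_eq`: `mX = e₀ ψ`.  So `colen (H) = (p-1) e₀ ψ = 12 e₀ d₀ ≥ 12 e₀ colen I₀` (`colen_I0_le`, `Nat.mul_le_mul_left`; casts: `p - 1` in `ℕ` vs `ℤ`, `hp.one_le`). -/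
theorem colen_ineq (hX : IsInt Qb (tQ M₁ p) (TH1.XF M₁ p)) :
    12 * e0 M₁ * RP.colen (kA A) ((pT M₁ p A zr).map (rT A hM hp hpM hA oo))
      ≤ RP.colen (kA A) (Ideal.span {rT A hM hp hpM hA oo (XT A hp hpM hA hX)}) := by
  obtain ⟨d₀, hd, h12, -⟩ := CNT.exists_d0 M₁ p hM hp hpM
  have h1 : RP.colen (kA A) ((pT M₁ p A zr).map (rT A hM hp hpM hA oo)) ≤ d₀ :=
    colen_I0_le A hM hp hpM hA hd
  have hne : rT A hM hp hpM hA oo (XT A hp hpM hA hX) ≠ 0 := by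
    intro h0
    have h := rT_XT A hp hpM hA hX hM
    rw [h0] at h
    exact TH1.XR_ne_zero (kA A) M₁ p h.symm
  have h2 := RP.colen_span_RC M₁ p hM hp hpM A hA _ hne
  rw [rT_XT, TH1.order_XR, neg_neg, CNT.mX_eq] at h2
  have h4 : ((p - 1 : ℕ) : ℤ) = (p : ℤ) - 1 := by
    rw [Nat.cast_sub hp.one_le]; rfl
  have h3 : RP.colen (kA A) (Ideal.span {rT A hM hp hpM hA oo (XT A hp hpM hA hX)})
      = (p - 1) * (e0 M₁ * dedekindPsi M₁) := by
    rw [← h4] at h2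
    exact_mod_cast h2
  rw [h3]
  calc 12 * e0 M₁ * RP.colen (kA A) ((pT M₁ p A zr).map (rT A hM hp hpM hA oo))
      ≤ 12 * e0 M₁ * d₀ := Nat.mul_le_mul_left _ h1
    _ = e0 M₁ * (12 * d₀) := by ring
    _ = (p - 1) * (e0 M₁ * dedekindPsi M₁) := by rw [h12]; ring

end Fermat.Agent.MR.TH
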