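import Fermat.Agent.CAR.BK.Vert
import Fermat.Agent.TOR.T1.Basic

/-!
# MR / TH : the chart ring of level `p N'` with its TWO vertical valuations.  Definitions (no sorry).

ABSTRACT SETTING = `T1.Lvl` (two-level datum `F₀ = F(M₁)`, `F = F(M₁ q)`, `α β : F₀ → F` = `f(τ)`, `f(qτ)`, `w` the Atkin-Lehner
involution, `v` the Gauss valuation at `∞`, `v ∘ w` the one at `0`) + two subfields `E₀ ⊆ F₀`, `E ⊆ F` (elements fixed by inertia).
Index type `I2 = ON.Idx Empty` (two elements `oo`, `zr`), so that the chart ring is `BK.Bu K E (vv K v w) u` and the generic lemmas on `BK.Bu`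
(`BK.ic`, `DESC.isNoetherianRing_Bu`, `DESC.hg_Bu`) apply verbatim.

* `wj K w j`   : `id` for `j = oo`, `w` for `j = zr`
* `vv K v w j` : `v ∘ wj j`
* `vE`, `pE`, `rE` : the two vertical valuations of `E`, the vertical primes of `B_u`, the reduction maps `B_u → k((Q))`
-/

set_option autoImplicit false

open Polynomial ModularCurve AlgebraicCurve

noncomputable section

namespace Fermat.Agent.MR.TH

open Fermat.Agent.GAL.KL Fermat.Agent.GAL.KLC Fermat.Agent.TOR.T1 Fermat.Agent.CAR.ON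
open Fermat.Agent.CAR Fermat.Agent.CAR.BK

/-- the two indices `oo`, `zr`. -/
abbrev I2 := Idx Empty

theorem I2_cases (j : I2) : j = oo ∨ j = zr := by
  rcases j with _ | _ | e
  · exact Or.inl rfl
  · exact Or.inr rfl
  · exact e.elim

theorem oo_ne_zr : (oo : I2) ≠ zr := by
  intro h
  cases h

variable (K : Type*) {F₀ F k Γ' Γ₀ : Type*} [Field K] [Field F₀] [Field F] [Algebra K F₀]
  [Algebra K F] [Field k] [LinearOrderedCommGroupWithZero Γ'] [LinearOrderedCommGroupWithZero Γ₀]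

variable {K} in
/-- `id` at `oo`, `w` at `zr`. -/
def wj (w : F ≃ₐ[K] F) : I2 → (F ≃ₐ[K] F)
  | none => AlgEquiv.refl
  | some _ => w

variable {K} in
@[simp] theorem wj_oo (w : F ≃ₐ[K] F) (z : F) : wj w oo z = z := rfl

variable {K} in
@[simp] theorem wj_zr (w : F ≃ₐ[K] F) (z : F) : wj w zr z = w z := rfl

/-- the family `(v, v ∘ w)`. -/
def vv (v : Valuation F Γ₀) (w : F ≃ₐ[K] F) (j : I2) : Valuation F Γ₀ := vw K v (wj w j)

variable {K} in
@[simp] theorem vv_apply (v : Valuation F Γ₀) (w : F ≃ₐ[K] F) (j : I2) (z : F) :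
    vv K v w j z = v (wj w j z) := rfl

variable {K} in
theorem vv_oo (v : Valuation F Γ₀) (w : F ≃ₐ[K] F) (z : F) : vv K v w oo z = v z := rfl

variable {K} in
theorem vv_zr (v : Valuation F Γ₀) (w : F ≃ₐ[K] F) (z : F) : vv K v w zr z = v (w z) := rfl

/-- the chart ring `B_u ⊆ E`. -/
abbrev B2 (E : Subfield F) (v : Valuation F Γ₀) (w : F ≃ₐ[K] F) (u : F) : Subring E :=
  Bu K E (vv K v w) u

variable {K} in
theorem mem_B2 {E : Subfield F} {v : Valuation F Γ₀} {w : F ≃ₐ[K] F} {u : F} {z : E} :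
    z ∈ B2 K E v w u ↔ IsInt K u (z : F) ∧ v (z : F) ≤ 1 ∧ v (w (z : F)) ≤ 1 := by
  rw [mem_Bu]
  constructor
  · rintro ⟨h1, h2⟩
    exact ⟨h1, h2 oo, h2 zr⟩
  · rintro ⟨h1, h2, h3⟩
    refine ⟨h1, fun j => ?_⟩
    rcases I2_cases j with rfl | rfl
    · exact h2
    · exact h3

/-- the two vertical valuations of `E`. -/
def vE (E : Subfield F) (v : Valuation F Γ₀) (w : F ≃ₐ[K] F) (j : I2) : Valuation E Γ₀ :=
  (vv K v w j).comap E.subtype

variable {K} in
@[simp] theorem vE_apply (E : Subfield F) (v : Valuation F Γ₀) (w : F ≃ₐ[K] F) (j : I2) (z : E) :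
    vE K E v w j z = v (wj w j (z : F)) := rfl

/-- the vertical primes of `B_u`. -/
def pE (E : Subfield F) (v : Valuation F Γ₀) (w : F ≃ₐ[K] F) (u : F) (j : I2) :
    Ideal (B2 K E v w u) where
  carrier := {z | vv K v w j ((z : E) : F) < 1}
  add_mem' := fun h h' => lt_of_le_of_lt (Valuation.map_add _ _ _) (max_lt h h')
  zero_mem' := by
    show vv K v w j (0 : F) < 1
    rw [map_zero]; exact zero_lt_one
  smul_mem' := fun c z h => by
    show vv K v w j (((c : E) : F) * ((z : E) : F)) < 1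
    rw [map_mul]
    exact lt_of_le_of_lt (mul_le_of_le_one_left' (c.2.2 _)) h

variable {K} in
theorem mem_pE {E : Subfield F} {v : Valuation F Γ₀} {w : F ≃ₐ[K] F} {u : F} {j : I2}
    {z : B2 K E v w u} : z ∈ pE K E v w u j ↔ vE K E v w j (z : E) < 1 := Iff.rfl

/-- the reduction maps `B_u → k((Q))`. -/
def rE (E : Subfield F) {v : Valuation F Γ₀} (ρ : v.integer →+* LaurentSeries k) (w : F ≃ₐ[K] F)
    (u : F) (j : I2) : B2 K E v w u →+* LaurentSeries k :=
  ρ.comp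
    { toFun := fun z => ⟨wj w j ((z : E) : F), z.2.2 j⟩
      map_one' := Subtype.ext (map_one (wj w j))
      map_mul' := fun _ _ => Subtype.ext (map_mul (wj w j) _ _)
      map_zero' := Subtype.ext (map_zero (wj w j))
      map_add' := fun _ _ => Subtype.ext (map_add (wj w j) _ _) }

variable {K} in
theorem rd_rE (E : Subfield F) {v : Valuation F Γ₀} (ρ : v.integer →+* LaurentSeries k)
    (w : F ≃ₐ[K] F) (u : F) (j : I2) (z : B2 K E v w u) :
    Rd ρ (wj w j ((z : E) : F)) (rE K E ρ w u j z) := ⟨z.2.2 j, rfl⟩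

/-- **the hypotheses on the chart** `(u₀, u, η) = (x, t, ξ)`:  `T1.ChartIn` + rationality. -/
structure Chart2 {v₀ : Valuation F₀ Γ'} (ρ₀ : v₀.integer →+* LaurentSeries k)
    {v : Valuation F Γ₀} (ρ : v.integer →+* LaurentSeries k)
    (α β : F₀ →ₐ[K] F) (w : F ≃ₐ[K] F) (E₀ : Subfield F₀) (E : Subfield F) (q : ℕ) [NeZero q]
    (u₀ : F₀) (u : F) (η : LaurentSeries k) : Prop where
  /-- rationality -/
  αE : ∀ c ∈ E₀, α c ∈ E
  βE : ∀ c ∈ E₀, β c ∈ E
  u₀E : u₀ ∈ E₀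
  /-- the parameter -/
  ru : Rd ρ₀ u₀ η
  Vη : qExpand k q η = η ^ q
  oη : η.order ≠ 0
  /-- the chart over `K` -/
  ci : ChartIn K ρ₀ ρ α w u₀ u η
  /-- rational lifts -/
  lift : ∀ c φ, Rd ρ₀ c φ → IsInt k η φ → ∃ c' ∈ E₀, IsInt K u₀ c' ∧ Rd ρ₀ c' φ
  /-- every element of the residue field is a fraction of elements of the reduced chart ring -/
  fr : ∀ c φ, Rd ρ₀ c φ → ∃ b s : LaurentSeries k, s ≠ 0 ∧ (∃ c', Rd ρ₀ c' b) ∧ IsInt k η b ∧
    (∃ c', Rd ρ₀ c' s) ∧ IsInt k η s ∧ s * φ = b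

end Fermat.Agent.MR.TH
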