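import Fermat.Agent.MR.TH.Conc
import Fermat.Agent.DSC.InertiaVal
import Fermat.Agent.DSC.Discrete

/-!
# MR / TH / Disc : (TH5) `π = p` is a uniformiser of both vertical valuations of `E = FN(M₁ p)^I`   (package MR-TH-2)
-/

set_option autoImplicit false

open ModularCurve AlgebraicCurve

noncomputable section

namespace Fermat.Agent.MR.TH

open Fermat.Agent.GR Fermat.Agent.GAL Fermat.Agent.GAL.KL Fermat.Agent.GAL.KLC Fermat.Agent.S24
open Fermat.Agent.GR.HeckeField Fermat.Agent.TOR Fermat.Agent.TOR.GB Fermat.Agent.TOR.T1C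
open Fermat.Agent.CAR Fermat.Agent.CAR.BK Fermat.Agent.CAR.ON Fermat.Agent.CAR.CNT
open Fermat.Agent.CAR.DESC

variable {M₁ p : ℕ} [NeZero M₁] [NeZero p] (A : ValuationSubring Qb)

/-- the Gauss valuation of a constant.  (`(mem_integer_iff A N)`, `T1C.rd_iff`, `HasRed` of a constant series `C a`: see `DESC.coe_algebraMap_FL`, `ORD.P2.CRed`/`hasRed_C…`;
conversely a reduction of `C a` has its coefficient `0` in `A`.  Look at how `CAR/FQ2C`/`CAR/DESC` instantiate the hypothesis `hvA` of `DESC.isNoetherianRing_Bu`.) -/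
theorem vG_algebraMap_le_one_iff (N : ℕ) [NeZero N] (a : Qb) :
    vG A N (algebraMap Qb (FN N) a) ≤ 1 ↔ a ∈ A := by
  rw [ValThm_le_one_iff, ValThm_coe_algebraMap]
  exact ⟨fun ⟨_, h⟩ => ValThm_mem_of_hasRed_C A h, fun ha => ⟨_, hasRed_C A ⟨a, ha⟩⟩⟩

/-- `|p| < 1`.  (`rd_zero_iff (isRed A N)`: the constant `p` reduces to `0` since `A` lies over `p`; or: `p⁻¹ ∉ A` + `vG_algebraMap_le_one_iff`.) -/
theorem vG_p_lt_one (hA : A.LiesOverPrime p) (N : ℕ) [NeZero N] :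
    vG A N (algebraMap Qb (FN N) (p : Qb)) < 1 := by
  have hp0 : (p : Qb) ≠ 0 := by exact_mod_cast NeZero.ne p
  have hv : A.valuation (p : Qb) < 1 := (ValuationSubring.mem_nonunits_iff A).1 hA
  have hinv : (p : Qb)⁻¹ ∉ A := by
    intro h
    rw [← ValuationSubring.valuation_le_one_iff, map_inv₀,
      inv_le_one₀ (zero_lt_iff.2 ((Valuation.ne_zero_iff _).2 hp0))] at h
    exact absurd hv (not_lt.2 h)
  by_contra hcon
  rw [not_lt] at hcon
  apply hinv
  rw [← vG_algebraMap_le_one_iff A N, map_inv₀, map_inv₀]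
  exact inv_le_one_of_one_le₀ hcon

/-- discreteness at `∞`, any level.
PROOF.  `h` gives `HasRed A x 0` (`T1.rd_zero_iff (isRed A N)`, `T1C.rd_iff`).  `(DSC.isUnif_p A hp hA).hasRed_div (mem_EF_iff_mem_FH.1 hx) h0` gives a reduction of `x / C p`, i.e.
`vG (x / p) ≤ 1` (`mem_integer_iff`, `coe_algebraMap_FL`), so `vG x ≤ vG p`. -/
theorem vG_le_p (hp : p.Prime) (hA : A.LiesOverPrime p) (N : ℕ) [NeZero N] {x : FN N}
    (hx : x ∈ EC A N) (h : vG A N x < 1) :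
    vG A N x ≤ vG A N (algebraMap Qb (FN N) (p : Qb)) := by
  have hp0 : algebraMap Qb (FN N) (p : Qb) ≠ 0 := by
    rw [Ne, map_eq_zero]
    exact_mod_cast hp.ne_zero
  have h0 : HasRed A (x : LaurentSeries Qb) 0 := (vG_lt_one_iff A N).1 h
  obtain ⟨z, hz⟩ := (DSC.isUnif_p A hp hA).hasRed_div (mem_EF_iff_mem_FH.1 hx) h0
  have h1 : vG A N (x / algebraMap Qb (FN N) (p : Qb)) ≤ 1 := by
    rw [ValThm_le_one_iff]
    refine ⟨z, ?_⟩
    have e : ((x / algebraMap Qb (FN N) (p : Qb) : FN N) : LaurentSeries Qb)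
        = (x : LaurentSeries Qb) / ((algebraMap Qb (FN N) (p : Qb) : FN N) : LaurentSeries Qb) := rfl
    rw [e, ValThm_coe_algebraMap]
    exact hz
  rwa [map_div₀, div_le_one₀ (zero_lt_iff.2 ((Valuation.ne_zero_iff _).2 hp0))] at h1

/-- field `πlt` of `MR.C.Base`.  (`coe_piT`, `AlgEquiv.commutes` for `wj`, `vG_p_lt_one`.) -/
theorem piT_lt (hA : A.LiesOverPrime p) (j : I2) :
    vT M₁ p A j ((piT M₁ p A : BT M₁ p A) : EC A (M₁ * p)) < 1 := by
  rw [vE_apply, coe_piT, AlgEquiv.commutes]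
  exact vG_p_lt_one A hA (M₁ * p)

/-- **(TH5)** field `πunif` of `MR.C.Base`.  (`j = oo`: `vG_le_p`; `j = zr`: `vG_le_p` for `wq x` (`wq_mem_EC`).) -/
theorem piT_unif (hp : p.Prime) (hpM : ¬ p ∣ M₁) (hA : A.LiesOverPrime p) (j : I2)
    (x : EC A (M₁ * p)) (h : vT M₁ p A j x < 1) :
    vT M₁ p A j x ≤ vT M₁ p A j ((piT M₁ p A : BT M₁ p A) : EC A (M₁ * p)) := by
  rw [vE_apply] at h ⊢
  rw [vE_apply, coe_piT, AlgEquiv.commutes]
  rcases I2_cases j with rfl | rfl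
  · exact vG_le_p A hp hA (M₁ * p) x.2 h
  · exact vG_le_p A hp hA (M₁ * p) (wq_mem_EC A hp hpM x.2) h

end Fermat.Agent.MR.TH
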