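import Fermat.Agent.MR.TH.Noeth
import Fermat.Agent.CAR.DESC.FinDim

/-!
# MR / TH / Frac : `Frac BT = E`   (package MR-TH-5)
-/

set_option autoImplicit false

open ModularCurve AlgebraicCurve Polynomial

noncomputable section

namespace Fermat.Agent.MR.TH

open Fermat.Agent.GR Fermat.Agent.GAL Fermat.Agent.GAL.KL Fermat.Agent.GAL.KLC Fermat.Agent.S24
open Fermat.Agent.GR.HeckeField Fermat.Agent.TOR Fermat.Agent.TOR.GB Fermat.Agent.TOR.T1C
open Fermat.Agent.CAR Fermat.Agent.CAR.BK Fermat.Agent.CAR.ON Fermat.Agent.CAR.CNT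
open Fermat.Agent.CAR.DESC

variable {M₁ p : ℕ} [NeZero M₁] [NeZero p] (A : ValuationSubring Qb)
  (hM : AdmLevel M₁) (hp : p.Prime) (hpM : ¬ p ∣ M₁) (hA : A.LiesOverPrime p)
include hM hp hpM hA

/-- **`Frac BT = E`** (field `frac` of `MR.C.Base`).
PROOF.  Let `d`, `β`, `hβs` be as in `noethT`, `u := ⟨tQ M₁ p, tQ_mem_EC A⟩`.  `DESC.exists_rel_of_spans β hβs (fun j : Fin (d+1) => (x : FN _) ^ (j : ℕ))` and
`DESC.exists_fixed_rel u (fun j => x ^ (j : ℕ)) …` give `p' ≠ 0` with `I`-fixed coefficients and `∑ j, aeval t (p' j) * x^j = 0`.  Each `a_j := aeval t (p' j)` lies in `E` (see `DESC.FinDim_aeval_mem` or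
`Subfield` closure: constants by `algebraMap_mem_EC`, `tQ_mem_EC`) and is integral over `ℚ̄[t]` (`IsInt.aeval`), `a_j ≠ 0` for some `j` (`(T1.setup H X).G1.inj`).
By `DESC.exists_pow_mul_mem_Bu` there is `N` with `π^N a_j ∈ BT` for all `j`.  So `x` is algebraic over `BT` (polynomial `∑ (π^N a_j) X^j ≠ 0`);
`exists_integral_multiple` (Mathlib) gives `b ≠ 0` in `BT` with `b • x` integral over `BT`, hence in `BT` by `BK.ic`. -/
theorem fracT (x : EC A (M₁ * p)) :
    ∃ a b : BT M₁ p A, b ≠ 0 ∧ x * (b : EC A (M₁ * p)) = (a : EC A (M₁ * p)) := by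
  classical
  have H := lvl A M₁ p hp hpM
  have X := xDatT A hM hp hpM hA
  obtain ⟨P₀, P₁, C⟩ := exists_cusp M₁ p hp hpM
  have hβs := T1.spans_ee H X hp.two_le C
  set u : EC A (M₁ * p) := ⟨tQ M₁ p, tQ_mem_EC A⟩ with hu
  obtain ⟨p0, hp0, hrel⟩ := DESC.exists_rel_of_spans _ hβs
    (fun j => ((x : EC A (M₁ * p)) : FN (M₁ * p)) ^ (j : ℕ))
  obtain ⟨p', hp', hfix, hrel'⟩ := DESC.exists_fixed_rel u (fun j => x ^ (j : ℕ)) p0 hp0 hrel
  -- the coefficients as elements of `E`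
  choose a _ ha using fun j => DESC.FinDim_aeval_mem A u (p' j) (hfix j)
  have hint : ∀ j, IsInt Qb (tQ M₁ p) ((a j : EC A (M₁ * p)) : FN (M₁ * p)) := fun j => by
    rw [ha j]; exact IsInt.aeval _
  have harch : ∀ i : I2, Arch (vv Qb (vG A (M₁ * p)) (wq M₁ p) i) :=
    arch_vv (arch A (M₁ * p) hp hA)
  choose n hn using fun j => DESC.exists_pow_mul_mem_Bu harch (piT M₁ p A) (piT_lt A hA) (a j) (hint j)
  set Nn : ℕ := ∑ j, n j with hNn
  have hmem : ∀ j, ((piT M₁ p A : BT M₁ p A) : EC A (M₁ * p)) ^ Nn * a j ∈ BT M₁ p A := fun j => by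
    have hle : n j ≤ Nn := Finset.single_le_sum (f := n) (fun _ _ => Nat.zero_le _) (Finset.mem_univ j)
    obtain ⟨r, hr⟩ := Nat.exists_eq_add_of_le hle
    rw [hr, add_comm, pow_add, mul_assoc]
    exact mul_mem (pow_mem (piT M₁ p A).2 r) (hn j)
  -- the polynomial
  let b : Fin _ → BT M₁ p A := fun j => ⟨_, hmem j⟩
  have hπ0 : ((piT M₁ p A : BT M₁ p A) : EC A (M₁ * p)) ≠ 0 := fun h =>
    piT_ne_zero A hp (Subtype.ext h)
  have halg : IsAlgebraic (BT M₁ p A) x := by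
    refine ⟨∑ j, Polynomial.C (b j) * Polynomial.X ^ (j : ℕ), ?_, ?_⟩
    · intro h0
      apply hp'
      funext j
      have hc := congrArg (fun P => Polynomial.coeff P (j : ℕ)) h0
      simp only [Polynomial.finsetSum_coeff, Polynomial.coeff_C_mul, Polynomial.coeff_X_pow,
        Polynomial.coeff_zero] at hc
      rw [Finset.sum_eq_single j (fun i _ hij => by
        rw [if_neg (fun h => hij (Fin.ext h.symm)), mul_zero]) (fun h => absurd (Finset.mem_univ j) h),
        if_pos rfl, mul_one] at hc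
      have hb : ((piT M₁ p A : BT M₁ p A) : EC A (M₁ * p)) ^ Nn * a j = 0 := congrArg Subtype.val hc
      have haj : a j = 0 := (mul_eq_zero.1 hb).resolve_left (pow_ne_zero _ hπ0)
      have h1 := ha j
      rw [haj] at h1
      exact (T1.setup H X).G1.inj _ h1.symm
    · rw [map_sum]
      have h2 : ∀ j, Polynomial.aeval x (Polynomial.C (b j) * Polynomial.X ^ (j : ℕ))
          = ((piT M₁ p A : BT M₁ p A) : EC A (M₁ * p)) ^ Nn * (a j * x ^ (j : ℕ)) := fun j => by
        rw [map_mul, Polynomial.aeval_C, map_pow, Polynomial.aeval_X, ← mul_assoc]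
        rfl
      rw [Finset.sum_congr rfl fun j _ => h2 j, ← Finset.mul_sum]
      have h3 : ∑ j, a j * x ^ (j : ℕ) = 0 := by
        apply Subtype.ext
        have h4 : ∀ z : EC A (M₁ * p), (z : FN (M₁ * p)) = (EC A (M₁ * p)).subtype z := fun _ => rfl
        rw [h4, map_sum]
        refine Eq.trans ?_ hrel'
        refine Finset.sum_congr rfl fun j _ => ?_
        rw [map_mul, ← h4, ha j]
        rfl
      rw [h3, mul_zero]
  obtain ⟨y, hy0, hy⟩ := halg.exists_integral_multiple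
  exact ⟨⟨y • x, BK.ic _ hy⟩, y, hy0, mul_comm _ _⟩

end Fermat.Agent.MR.TH
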