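import Fermat.Agent.CAR.NS.Gen
import Fermat.Agent.CAR.RP.Colen

/-!
# MR / TH / Gen : abstract thickness one at a crossing point of TWO components   (package MR-TH-1)

`B ⊆ F`, two vertical valuations `v o`, `v z`, `π` a uniformiser of both, `X X' = π^n`, `|X| = (1, |π|^n)`, `|X'| = (|π|^n, 1)`;
`r : B → R` the reduction along `o` (`R` Dedekind, a `k`-algebra with finite colengths), `I₀ := r(p z)`.
If `n · colen I₀ ≤ colen (r X)` then `p z` is principal near every closed point.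
-/

set_option autoImplicit false

namespace Fermat.Agent.MR.TH

open Fermat.Agent.GAL Fermat.Agent.CAR Fermat.Agent.CAR.NS

variable {F Γ₀ ι : Type*} [Field F] [LinearOrderedCommGroupWithZero Γ₀] [Fintype ι]
  {B : Subring F} {v : ι → Valuation F Γ₀} {p : ι → Ideal B}

/-- **the division trick.**  For `ν ∈ p z` the element `ν^n / X` lies in `B`.
PROOF.  `X ≠ 0` (`v o X = 1`).  `y := ν^n / X`.  (KR): `π^n y = ν^n X'` (from `hXX`) `∈ B`;  `v o y = (v o ν)^n ≤ 1`;
`v z X = (v z π)^n` (apply `v z` to `hXX`, `hX'z`), `v z ν ≤ v z π` (`hdisc`, `V.mem_p`), so `v z y ≤ 1` (if `v z π = 0` then `π = 0`, `X X' = 0` (for `n > 0`), impossible; treat by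
`div_le_one₀`/`pow_le_pow_left₀`). -/
theorem exists_div (V : Vert B v p) {π : B}
    (KR : ∀ z : F, (∃ N : ℕ, (π : F) ^ N * z ∈ B) → (∀ i, v i z ≤ 1) → z ∈ B)
    {o z : ι} (hall : ∀ i, i = o ∨ i = z)
    (hdisc : ∀ x : F, v z x < 1 → v z x ≤ v z (π : F))
    {X X' : B} {n : ℕ} (hXX : X * X' = π ^ n) (hXo : v o (X : F) = 1) (hX'z : v z (X' : F) = 1)
    {ν : B} (hν : ν ∈ p z) : ∃ y : B, y * X = ν ^ n := by
  have hX0 : (X : F) ≠ 0 := by
    intro h0
    rw [h0, map_zero] at hXo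
    exact zero_ne_one hXo
  have hXXF : (X : F) * (X' : F) = (π : F) ^ n := by
    have := congrArg Subtype.val hXX
    simpa using this
  have hzX : v z (X : F) = v z (π : F) ^ n := by
    have := congrArg (v z) hXXF
    rwa [map_mul, hX'z, mul_one, map_pow] at this
  have hmem : (ν : F) ^ n / (X : F) ∈ B := by
    refine KR _ ⟨n, ?_⟩ fun i => ?_
    · have h1 : (π : F) ^ n * ((ν : F) ^ n / (X : F)) = (X' : F) * (ν : F) ^ n := by
        rw [← hXXF]
        field_simp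
      rw [h1]
      exact B.mul_mem X'.2 (B.pow_mem ν.2 n)
    · rcases hall i with rfl | rfl
      · rw [map_div₀, hXo, div_one, map_pow]
        exact pow_le_one₀ zero_le (V.le_one _ ν)
      · rw [map_div₀, map_pow, hzX]
        have hpos : 0 < v i (π : F) ^ n := by
          rw [← hzX]
          exact zero_lt_iff.2 ((v i).ne_zero_iff.2 hX0)
        rw [div_le_one₀ hpos]
        exact pow_le_pow_left₀ zero_le (hdisc _ ((V.mem_p _ ν).1 hν)) n
  refine ⟨⟨_, hmem⟩, Subtype.ext ?_⟩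
  simp only [Subring.coe_mul, Subring.coe_pow]
  exact div_mul_cancel₀ _ hX0

/-- **thickness one at a crossing point.**
PROOF.  `I₀ := (p z).map r ≠ ⊥` (`V.ne`: some `s ∈ p z`, `s ∉ p o`, so `r s ≠ 0` by `hker`).  `H := r X ≠ 0` (`hXo`, `V.mem_p`, `hker`).
`Pb := P.map r` is prime (`Ideal.map_isPrime_of_surjective hr` with `RingHom.ker r ≤ P` from `hker`, `ho`), `I₀ ≤ Pb`, so `Pb ≠ ⊥`; `b ∈ P ↔ r b ∈ Pb`
(`Ideal.mem_map_iff_of_surjective`, kernel in `P`).
`hpow : ∀ a ∈ I₀, H ∣ a^n`: `a = r ν`, `ν ∈ p z` (`Ideal.mem_map_iff_of_surjective`), `exists_div`.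
`RP.exists_mem_not_mem_mul` gives `a ∈ I₀ \ I₀ Pb`, `a = r ν`; `y X = ν^n`; `RP.not_mem_of_pow_eq_mul k hfin … (hy : a^n = H * r y)` gives `r y ∉ Pb`, so `y ∉ P`.
VALUES: `y ∉ P ⊇ p o, p z`: `v o y = v z y = 1` (`V.notMem_iff`).  `v o`: `(v o ν)^n = 1` so `v o ν = 1` (`pow_eq_one_iff_of_nonneg`/`pow_eq_one_iff` for linearly ordered groups with zero, `n ≠ 0`);
`v z`: `(v z ν)^n = v z X = (v z π)^n`, so `v z ν = v z π` (`pow_left_injective`/`pow_left_inj₀`).
`ν * (ν^(n-1) * X') = y * π^n`.  Conclude by `NS.genOn_of_dvd V hπ0 KR hP.isPrime (i := z) …`. -/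
theorem gen_node (V : Vert B v p) {π : B} (hπ0 : π ≠ 0)
    (KR : ∀ z : F, (∃ N : ℕ, (π : F) ^ N * z ∈ B) → (∀ i, v i z ≤ 1) → z ∈ B)
    {o z : ι} (hoz : o ≠ z) (hall : ∀ i, i = o ∨ i = z) (hπz : v z (π : F) < 1)
    (hdisc : ∀ x : F, v z x < 1 → v z x ≤ v z (π : F))
    {X X' : B} {n : ℕ} (hn : 0 < n) (hXX : X * X' = π ^ n) (hXo : v o (X : F) = 1)
    (hX'z : v z (X' : F) = 1)
    {k R : Type*} [Field k] [CommRing R] [Algebra k R] [IsDedekindDomain R]
    (hfin : RP.FinColen k R) (r : B →+* R) (hr : Function.Surjective r)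
    (hker : ∀ b, r b = 0 ↔ b ∈ p o)
    (hcol : n * RP.colen k ((p z).map r) ≤ RP.colen k (Ideal.span {r X}))
    {P : Ideal B} (hP : P.IsMaximal) (ho : p o ≤ P) (hz : p z ≤ P) :
    ∃ ν y : B, y ∉ P ∧ GenOn B (v z) (p z) ν y := by
  have hkerP : RingHom.ker r ≤ P := fun b hb => ho ((hker b).1 hb)
  -- `I₀ ≠ ⊥`
  have hI0 : (p z).map r ≠ ⊥ := by
    intro hbot
    apply V.ne o z hoz
    intro s hs
    have h1 : r s ∈ (p z).map r := Ideal.mem_map_of_mem r hs
    rw [hbot, Ideal.mem_bot] at h1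
    exact (hker s).1 h1
  -- `H ≠ 0`
  have hH : r X ≠ 0 := by
    intro h0
    have h1 := (V.mem_p o X).1 ((hker X).1 h0)
    rw [hXo] at h1
    exact lt_irrefl _ h1
  have hPb : (P.map r).IsPrime := Ideal.map_isPrime_of_surjective hr hkerP
  have hIP : (p z).map r ≤ P.map r := Ideal.map_mono hz
  have hPb0 : P.map r ≠ ⊥ := fun h0 => hI0 (le_bot_iff.1 (h0 ▸ hIP))
  have hmemP : ∀ b : B, r b ∈ P.map r → b ∈ P := by
    intro b hb
    obtain ⟨c, hc, hcb⟩ := (Ideal.mem_map_iff_of_surjective r hr).1 hb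
    have h1 : b - c ∈ P := hkerP (by rw [RingHom.mem_ker, map_sub, hcb, sub_self])
    have := P.add_mem h1 hc
    rwa [sub_add_cancel] at this
  have hpow : ∀ a ∈ (p z).map r, r X ∣ a ^ n := by
    intro a ha
    obtain ⟨ν, hν, rfl⟩ := (Ideal.mem_map_iff_of_surjective r hr).1 ha
    obtain ⟨y, hy⟩ := exists_div V KR hall hdisc hXX hXo hX'z hν
    exact ⟨r y, by rw [← map_pow, ← hy, map_mul, mul_comm]⟩
  obtain ⟨a, haI, haIP⟩ := RP.exists_mem_not_mem_mul hI0 hPb hPb0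
  obtain ⟨ν, hν, rfl⟩ := (Ideal.mem_map_iff_of_surjective r hr).1 haI
  obtain ⟨y, hy⟩ := exists_div V KR hall hdisc hXX hXo hX'z hν
  have hyPb : r y ∉ P.map r :=
    RP.not_mem_of_pow_eq_mul k hfin hI0 hH hpow hcol hPb hPb0 haI haIP
      (by rw [← map_pow, ← hy, map_mul, mul_comm])
  have hyP : y ∉ P := fun h => hyPb (Ideal.mem_map_of_mem r h)
  -- values
  have hyo : v o (y : F) = 1 := (V.notMem_iff o y).1 fun h => hyP (ho h)
  have hyz : v z (y : F) = 1 := (V.notMem_iff z y).1 fun h => hyP (hz h)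
  have hyF : (y : F) * (X : F) = (ν : F) ^ n := by
    have := congrArg Subtype.val hy
    simpa using this
  have hXXF : (X : F) * (X' : F) = (π : F) ^ n := by
    have := congrArg Subtype.val hXX
    simpa using this
  have hzX : v z (X : F) = v z (π : F) ^ n := by
    have := congrArg (v z) hXXF
    rwa [map_mul, hX'z, mul_one, map_pow] at this
  have hνo : v o (ν : F) = 1 := by
    have h1 := congrArg (v o) hyF
    rw [map_mul, hyo, hXo, mul_one, map_pow] at h1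
    exact (pow_eq_one_iff_of_nonneg zero_le hn.ne').1 h1.symm
  have hνz : v z (ν : F) = v z (π : F) := by
    have h1 := congrArg (v z) hyF
    rw [map_mul, hyz, one_mul, hzX, map_pow] at h1
    exact (pow_left_inj₀ zero_le zero_le hn.ne').1 h1.symm
  have hdvd : ν * (ν ^ (n - 1) * X') = y * π ^ n := by
    rw [← mul_assoc, ← pow_succ', Nat.sub_add_cancel hn, ← hy, ← hXX]
    ring
  obtain ⟨y', hy', hg⟩ := genOn_of_dvd V hπ0 KR hP.isPrime (i := z) (ν := ν) (by rw [hνz]; exact hπz)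
    (fun x hx => by rw [hνz]; exact hdisc x hx)
    (fun j hj _ => by
      rcases hall j with rfl | rfl
      · exact hνo
      · exact absurd rfl hj) hyP hdvd
  exact ⟨ν, y', hy', hg⟩

/-- **(TH4), abstract form** = field `pr` of `MR.C.Base`.
PROOF.  If `p o ≤ P` and `p z ≤ P`: `gen_node`.  Otherwise exactly one `p i ≤ P`: `NS.genOn_pi` (`hoth` from `hall`). -/
theorem pr_abs (V : Vert B v p) {π : B} (hπ0 : π ≠ 0)
    (KR : ∀ z : F, (∃ N : ℕ, (π : F) ^ N * z ∈ B) → (∀ i, v i z ≤ 1) → z ∈ B)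
    {o z : ι} (hoz : o ≠ z) (hall : ∀ i, i = o ∨ i = z) (hπlt : ∀ i, v i (π : F) < 1)
    (hdisc : ∀ (i : ι) (x : F), v i x < 1 → v i x ≤ v i (π : F))
    {X X' : B} {n : ℕ} (hn : 0 < n) (hXX : X * X' = π ^ n) (hXo : v o (X : F) = 1)
    (hX'z : v z (X' : F) = 1)
    {k R : Type*} [Field k] [CommRing R] [Algebra k R] [IsDedekindDomain R]
    (hfin : RP.FinColen k R) (r : B →+* R) (hr : Function.Surjective r)
    (hker : ∀ b, r b = 0 ↔ b ∈ p o)
    (hcol : n * RP.colen k ((p z).map r) ≤ RP.colen k (Ideal.span {r X}))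
    (P : Ideal B) (hP : P.IsMaximal) (hex : ∃ i, p i ≤ P) :
    ∃ (i : ι) (ν y : B), p i ≤ P ∧ y ∉ P ∧ GenOn B (v i) (p i) ν y := by
  by_cases ho : p o ≤ P
  · by_cases hz : p z ≤ P
    · obtain ⟨ν, y, hy, hg⟩ := gen_node V hπ0 KR hoz hall (hπlt z) (hdisc z) hn hXX hXo hX'z hfin r hr
        hker hcol hP ho hz
      exact ⟨z, ν, y, hz, hy, hg⟩
    · obtain ⟨y, hy, hg⟩ := genOn_pi V hπ0 KR hP.isPrime (i := o) (hπlt o) (hdisc o)
        (fun j hj => by
          rcases hall j with rfl | rfl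
          · exact absurd rfl hj
          · exact hz)
      exact ⟨o, π, y, ho, hy, hg⟩
  · have hz : p z ≤ P := by
      obtain ⟨i, hi⟩ := hex
      rcases hall i with rfl | rfl
      · exact absurd hi ho
      · exact hi
    obtain ⟨y, hy, hg⟩ := genOn_pi V hπ0 KR hP.isPrime (i := z) (hπlt z) (hdisc z)
      (fun j hj => by
        rcases hall j with rfl | rfl
        · exact ho
        · exact absurd rfl hj)
    exact ⟨z, π, y, hz, hy, hg⟩

end Fermat.Agent.MR.TH
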