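import Fermat.Agent.CAR.NS.Gen
import Fermat.Agent.CAR.RP.Colen

/-!
# MR / TH / Gen4 : abstract (TH4)(b): thickness one at a double point from the colength inequality

`B ⊆ F`, two vertical valuations `v o`, `v z`; `r : B → R` the reduction at `o` (onto a Dedekind `k`-algebra, kernel `p o`);
`X X' = π ^ n`, `|X| = (1, |π|^n)`; `H = r X`, `I₀ = r (p z)`.  If `n · colen I₀ ≤ colen (H)` then `p z` has a local generator at every
prime `P ⊇ p o + p z`.
-/

set_option autoImplicit false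

noncomputable section

namespace Fermat.Agent.MR.TH

open Fermat.Agent.CAR Fermat.Agent.CAR.NS Fermat.Agent.CAR.RP

variable {F Γ₀ ι : Type*} [Field F] [LinearOrderedCommGroupWithZero Γ₀] [Fintype ι]
  {B : Subring F} {v : ι → Valuation F Γ₀} {p : ι → Ideal B}

omit [Fintype ι] in
/-- `ν ^ n / X ∈ B` for `ν ∈ p z`. -/
theorem gen4_div_mem (V : Vert B v p) {π : B}
    (KR : ∀ z : F, (∃ N : ℕ, (π : F) ^ N * z ∈ B) → (∀ i, v i z ≤ 1) → z ∈ B)
    {o z : ι} (h2 : ∀ j, j = o ∨ j = z)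
    (disc : ∀ x : F, v z x < 1 → v z x ≤ v z (π : F))
    {X X' : B} {n : ℕ} (hXX : X * X' = π ^ n) (hX0 : X ≠ 0) (hXo : v o (X : F) = 1)
    (hXz : v z (X : F) = v z (π : F) ^ n) {ν : B} (hν : ν ∈ p z) : (ν : F) ^ n / X ∈ B := by
  have hXF : (X : F) ≠ 0 := fun h => hX0 (Subtype.ext h)
  have hXXF : (X : F) * X' = (π : F) ^ n := by
    have := congrArg Subtype.val hXX
    simpa using this
  refine KR _ ⟨n, ?_⟩ fun j => ?_
  · have h1 : (π : F) ^ n * ((ν : F) ^ n / X) = ((ν ^ n * X' : B) : F) := by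
      rw [← hXXF]
      push_cast
      field_simp
    rw [h1]
    exact (ν ^ n * X').2
  · rcases h2 j with rfl | rfl
    · rw [map_div₀, hXo, div_one, map_pow]
      exact pow_le_one' (V.le_one _ ν) n
    · rw [map_div₀, hXz, map_pow]
      exact div_le_one_of_le₀ (pow_le_pow_left' (disc _ ((V.mem_p _ ν).1 hν)) n) zero_le

/-- **(TH4)(b), abstract.** -/
theorem gen4 {k R : Type*} [Field k] [CommRing R] [Algebra k R] [IsDedekindDomain R]
    (hfc : FinColen k R) (V : Vert B v p) {π : B} (hπ0 : π ≠ 0)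
    (KR : ∀ z : F, (∃ N : ℕ, (π : F) ^ N * z ∈ B) → (∀ i, v i z ≤ 1) → z ∈ B)
    {o z : ι} (h2 : ∀ j, j = o ∨ j = z)
    (disc : ∀ x : F, v z x < 1 → v z x ≤ v z (π : F)) (hπz : v z (π : F) < 1)
    (r : B →+* R) (hr : Function.Surjective r) (hker : ∀ b, r b = 0 ↔ b ∈ p o)
    {X X' : B} {n : ℕ} (hn : 0 < n) (hXX : X * X' = π ^ n) (hXo : v o (X : F) = 1)
    (hXz : v z (X : F) = v z (π : F) ^ n)
    (hI0 : (p z).map r ≠ ⊥)
    (hc : n * colen k ((p z).map r) ≤ colen k (Ideal.span {r X}))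
    {P : Ideal B} (hP : P.IsPrime) (hPo : p o ≤ P) (hPz : p z ≤ P) :
    ∃ ν y : B, y ∉ P ∧ GenOn B (v z) (p z) ν y := by
  classical
  have hX0 : X ≠ 0 := by
    rintro rfl
    rw [ZeroMemClass.coe_zero, map_zero] at hXo
    exact zero_ne_one hXo
  have hXF : (X : F) ≠ 0 := fun h => hX0 (Subtype.ext h)
  have hkerP : RingHom.ker r ≤ P := fun b hb => hPo ((hker b).1 hb)
  have hPb : (P.map r).IsPrime := Ideal.map_isPrime_of_surjective hr hkerP
  have hmemP : ∀ b, r b ∈ P.map r → b ∈ P := by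
    intro b h
    obtain ⟨x, hx, hxb⟩ := (Ideal.mem_map_iff_of_surjective r hr).1 h
    have h1 : b - x ∈ P := hPo ((hker _).1 (by rw [map_sub, hxb, sub_self]))
    have := P.add_mem h1 hx
    rwa [sub_add_cancel] at this
  have hPb0 : P.map r ≠ ⊥ := fun h => hI0 (le_bot_iff.1 (h ▸ Ideal.map_mono hPz))
  have hH0 : r X ≠ 0 := fun h => by
    have := (V.mem_p o X).1 ((hker X).1 h)
    rw [hXo] at this
    exact lt_irrefl _ this
  have hdiv : ∀ ν ∈ p z, ∃ y : B, ν ^ n = X * y := by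
    intro ν hν
    refine ⟨⟨_, gen4_div_mem V KR h2 disc hXX hX0 hXo hXz hν⟩, Subtype.ext ?_⟩
    push_cast
    field_simp
  have hpow : ∀ a ∈ (p z).map r, r X ∣ a ^ n := by
    intro a ha
    obtain ⟨ν, hν, rfl⟩ := (Ideal.mem_map_iff_of_surjective r hr).1 ha
    obtain ⟨y, hy⟩ := hdiv ν hν
    exact ⟨r y, by rw [← map_pow, hy, map_mul]⟩
  obtain ⟨a, haI, haIP⟩ := exists_mem_not_mem_mul hI0 hPb hPb0
  obtain ⟨ν, hν, rfl⟩ := (Ideal.mem_map_iff_of_surjective r hr).1 haI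
  obtain ⟨y, hy⟩ := hdiv ν hν
  have hyR : r ν ^ n = r X * r y := by rw [← map_pow, hy, map_mul]
  have hyPb : r y ∉ P.map r := not_mem_of_pow_eq_mul k hfc hI0 hH0 hpow hc hPb hPb0 haI haIP hyR
  have hyP : y ∉ P := fun h => hyPb (Ideal.mem_map_of_mem r h)
  have hyo : v o (y : F) = 1 := le_antisymm (V.le_one o y)
    (not_lt.1 fun h => hyP (hPo ((V.mem_p o y).2 h)))
  have hyz : v z (y : F) = 1 := le_antisymm (V.le_one z y)
    (not_lt.1 fun h => hyP (hPz ((V.mem_p z y).2 h)))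
  have hyF : (ν : F) ^ n = X * y := by
    have := congrArg Subtype.val hy
    simpa using this
  have hνz : v z (ν : F) = v z (π : F) := by
    have h1 : v z (ν : F) ^ n = v z (π : F) ^ n := by
      rw [← map_pow, hyF, map_mul, hyz, mul_one, hXz]
    exact (pow_left_inj₀ zero_le zero_le hn.ne').1 h1
  have hνo : v o (ν : F) = 1 := by
    have h1 : v o (ν : F) ^ n = 1 ^ n := by
      rw [← map_pow, hyF, map_mul, hyo, mul_one, hXo, one_pow]
    exact (pow_left_inj₀ zero_le zero_le hn.ne').1 h1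
  obtain ⟨y', hy'P, hgen⟩ := genOn_of_dvd V hπ0 KR hP (i := z) (ν := ν) (by rw [hνz]; exact hπz)
    (fun x hx => by rw [hνz]; exact disc x hx)
    (fun j hj _ => by
      rcases h2 j with rfl | rfl
      · exact hνo
      · exact absurd rfl hj)
    (β := ν ^ (n - 1) * X') (y₀ := y) (N := n) hyP (by
      rw [← mul_assoc, ← pow_succ', Nat.sub_add_cancel hn, hy, ← hXX]
      ring)
  exact ⟨ν, y', hy'P, hgen⟩

/-- **(TH4), abstract**: a local generator of some vertical prime through `P`, at every prime `P` of the special fibre. -/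
theorem th4_abs {k R : Type*} [Field k] [CommRing R] [Algebra k R] [IsDedekindDomain R]
    (hfc : FinColen k R) (V : Vert B v p) {π : B} (hπ0 : π ≠ 0)
    (KR : ∀ z : F, (∃ N : ℕ, (π : F) ^ N * z ∈ B) → (∀ i, v i z ≤ 1) → z ∈ B)
    {o z : ι} (h2 : ∀ j, j = o ∨ j = z)
    (disc : ∀ j, ∀ x : F, v j x < 1 → v j x ≤ v j (π : F)) (hπ1 : ∀ j, v j (π : F) < 1)
    (r : B →+* R) (hr : Function.Surjective r) (hker : ∀ b, r b = 0 ↔ b ∈ p o)
    {X X' : B} {n : ℕ} (hn : 0 < n) (hXX : X * X' = π ^ n) (hXo : v o (X : F) = 1)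
    (hXz : v z (X : F) = v z (π : F) ^ n)
    (hI0 : (p z).map r ≠ ⊥)
    (hc : n * colen k ((p z).map r) ≤ colen k (Ideal.span {r X}))
    {P : Ideal B} (hP : P.IsPrime) (hex : ∃ i, p i ≤ P) :
    ∃ (i : ι) (ν y : B), p i ≤ P ∧ y ∉ P ∧ GenOn B (v i) (p i) ν y := by
  by_cases hPo : p o ≤ P
  · by_cases hPz : p z ≤ P
    · obtain ⟨ν, y, hy, hg⟩ := gen4 hfc V hπ0 KR h2 (disc z) (hπ1 z) r hr hker hn hXX hXo hXz hI0 hc
        hP hPo hPz
      exact ⟨z, ν, y, hPz, hy, hg⟩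
    · obtain ⟨y, hy, hg⟩ := genOn_pi V hπ0 KR hP (hπ1 o) (disc o) (fun j hj => by
        rcases h2 j with rfl | rfl
        · exact absurd rfl hj
        · exact hPz)
      exact ⟨o, π, y, hPo, hy, hg⟩
  · have hPz : p z ≤ P := by
      obtain ⟨i, hi⟩ := hex
      rcases h2 i with rfl | rfl
      · exact absurd hi hPo
      · exact hi
    obtain ⟨y, hy, hg⟩ := genOn_pi V hπ0 KR hP (hπ1 z) (disc z) (fun j hj => by
      rcases h2 j with rfl | rfl
      · exact hPo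
      · exact absurd rfl hj)
    exact ⟨z, π, y, hPz, hy, hg⟩

end Fermat.Agent.MR.TH
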