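import Fermat.Agent.MR.TH.Gen
import Fermat.Agent.MR.TH.Frac
import Fermat.Agent.MR.TH.Col
import Fermat.Agent.MR.C.AbsDefs
import Fermat.Agent.CAR.NS.FGabs

/-!
# MR / TH / Main : THE BASE CHART OF LEVEL `p N'` :  `MR.C.Base (BT M₁ p A) (vT M₁ p A) (pT M₁ p A) (piT M₁ p A)`
(= (TH1), (TH2), (TH4), (TH5), noetherian, `Frac`), and (TH3) = (HG), (FG).
-/

set_option autoImplicit false

open ModularCurve AlgebraicCurve Polynomial

noncomputable section

namespace Fermat.Agent.MR.TH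

open Fermat.Agent.GR Fermat.Agent.GAL Fermat.Agent.GAL.KL Fermat.Agent.GAL.KLC Fermat.Agent.S24
open Fermat.Agent.GR.HeckeField Fermat.Agent.TOR Fermat.Agent.TOR.GB Fermat.Agent.TOR.T1C
open Fermat.Agent.CAR Fermat.Agent.CAR.BK Fermat.Agent.CAR.ON Fermat.Agent.CAR.CNT
open Fermat.Agent.CAR.DESC

variable {M₁ p : ℕ} [NeZero M₁] [NeZero p] (A : ValuationSubring Qb)
  (hM : AdmLevel M₁) (hp : p.Prime) (hpM : ¬ p ∣ M₁) (hA : A.LiesOverPrime p)
include hM hp hpM hA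

theorem e0_pos' : 0 < 12 * e0 M₁ := by
  have h1 := mX_pos M₁
  rw [CNT.mX_eq] at h1
  have := Nat.pos_of_mul_pos_right h1
  omega

/-- **(TH4)**: through every closed point of the special fibre one vertical prime is principal. -/
theorem prT (hX : IsInt Qb (tQ M₁ p) (TH1.XF M₁ p)) (P : Ideal (BT M₁ p A)) (hP : P.IsMaximal)
    (hex : ∃ i, pT M₁ p A i ≤ P) :
    ∃ (i : I2) (ν y : BT M₁ p A), pT M₁ p A i ≤ P ∧ y ∉ P ∧
      NS.GenOn (BT M₁ p A) (vT M₁ p A i) (pT M₁ p A i) ν y := by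
  haveI := RP.isDedekindDomain_RC M₁ p hM hp hpM A hA
  exact pr_abs (vertT A hM hp hpM hA) (piT_ne_zero A hp) (krT A hp) oo_ne_zr I2_cases (piT_lt A hA)
    (piT_unif A hp hpM hA) (e0_pos' A hM hp hpM hA) (XT_mul A hp hpM hA hX) (vT_XT A hp hpM hA hX)
    (vT_XT' A hp hpM hA hX) (RP.finColen_RC M₁ p hM hp hpM A hA) (rT A hM hp hpM hA oo)
    (rT_surjective A hM hp hpM hA oo) (rT_eq_zero_iff A hM hp hpM hA oo)
    (colen_ineq A hM hp hpM hA hX) P hP hex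

/-- **THE BASE CHART.** -/
theorem baseT (hX : IsInt Qb (tQ M₁ p) (TH1.XF M₁ p)) :
    MR.C.Base (BT M₁ p A) (vT M₁ p A) (pT M₁ p A) (piT M₁ p A) where
  vert := vertT A hM hp hpM hA
  π0 := piT_ne_zero A hp
  kr := krT A hp
  πlt := piT_lt A hA
  πunif := piT_unif A hp hpM hA
  pr := prT A hM hp hpM hA hX
  frac := fracT A hM hp hpM hA
  noeth := noethT A hM hp hpM hA

end Fermat.Agent.MR.TH
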