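import Fermat.Agent.MR.TH.Disc
import Fermat.Agent.CAR.DESC.NoethB
import Fermat.Agent.CAR.DESC.HG
import Fermat.Agent.GAL.KLC.LocPow

/-!
# MR / TH / Noeth : adapters `KL2 → KLm` for the family `vv`, `BT` is noetherian, (HG)   (package MR-TH-3)
-/

set_option autoImplicit false

open ModularCurve AlgebraicCurve Polynomial

noncomputable section

namespace Fermat.Agent.MR.TH

open Fermat.Agent.GR Fermat.Agent.GAL Fermat.Agent.GAL.KL Fermat.Agent.GAL.KLC Fermat.Agent.S24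
open Fermat.Agent.GR.HeckeField Fermat.Agent.TOR Fermat.Agent.TOR.GB Fermat.Agent.TOR.T1C
open Fermat.Agent.CAR Fermat.Agent.CAR.BK Fermat.Agent.CAR.ON Fermat.Agent.CAR.CNT
open Fermat.Agent.CAR.DESC

section Abs

variable {K F Γ₀ : Type*} [Field K] [Field F] [Algebra K F] [LinearOrderedCommGroupWithZero Γ₀]
  {v : Valuation F Γ₀} {w : F ≃ₐ[K] F} {t : F}

/-- the sup norm of the family `vv` is the sup norm of the pair.  (`le_antisymm`, `KLm.NN_le_iff`, `I2_cases`; `KL2.NN = max`.) -/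
theorem NN_vv (x : F) : KLm.NN (vv K v w) x = KL2.NN v (T1.vw K v w) x := by
  apply le_antisymm
  · rw [KLm.NN_le_iff]
    intro j
    rcases I2_cases j with rfl | rfl
    · exact KL2.le_NN_left x
    · exact KL2.le_NN_right x
  · rw [KL2.NN_le_iff]
    exact ⟨KLm.le_NN (v := vv K v w) oo x, KLm.le_NN (v := vv K v w) zr x⟩

/-- (`I2_cases`; `vv K v w oo = v` and `vv K v w zr = vw K v w` hold by `Valuation.ext fun _ => rfl`.) -/
theorem setup_vv (S : KL2.Setup K v (T1.vw K v w) t) : KLm.Setup K (vv K v w) t := by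
  have e1 : vv K v w oo = v := Valuation.ext fun _ => rfl
  have e2 : vv K v w zr = T1.vw K v w := Valuation.ext fun _ => rfl
  refine ⟨fun j => ?_, fun i j a => ?_⟩
  · rcases I2_cases j with rfl | rfl
    · rw [e1]; exact S.G1
    · rw [e2]; exact S.G2
  · rcases I2_cases i with rfl | rfl <;> rcases I2_cases j with rfl | rfl
    · rfl
    · rw [e1, e2]; exact S.eqL a
    · rw [e1, e2]; exact (S.eqL a).symm
    · rfl

/-- (`NN_vv`.) -/
theorem onm_vv {d : ℕ} {e : Fin d → F} (h : KL2.ON2 K v (T1.vw K v w) t e) :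
    KLm.ONm K (vv K v w) oo t e := by
  intro P γ
  rw [NN_vv]
  exact h P γ

theorem arch_vv (hA : Arch v) (j : I2) : Arch (vv K v w j) := T1.arch_vw hA (wj w j)

end Abs

variable {M₁ p : ℕ} [NeZero M₁] [NeZero p] (A : ValuationSubring Qb)
  (hM : AdmLevel M₁) (hp : p.Prime) (hpM : ¬ p ∣ M₁) (hA : A.LiesOverPrime p)
include hM hp hpM hA

/-- **`BT` is noetherian** (field `noeth` of `MR.C.Base`).
PROOF.  `DESC.isNoetherianRing_Bu (H := IA A) (N := M₁ * p) (A := A) (v := vv Qb (vG A (M₁*p)) (wq M₁ p)) hvA hHA (DSC.isUnif_p A hp hA) ⟨tQ M₁ p, tQ_mem_EC A⟩ S β hβ hβs` with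
`hvA := vG_algebraMap_le_one_iff A (M₁ * p)` (`vv … oo = vG` definitionally), `hHA`: the inertia group preserves `A` (it is contained in the decomposition group: see how
`CAR` proves the hypothesis `hHA` (grep `hHA` in `CAR/`), or `ValuationSubring.inertiaSubgroupIn`/`decompositionSubgroup` API in `Fermat/Prelude`),
`S := setup_vv (T1.setup H X)`, `β := T1.ee (alp M₁ p) (bet M₁ p) (xF M₁) (xF' M₁) (mX M₁) p`, `hβ := onm_vv (T1.on2_ee H X hp.two_le)`, `hβs := T1.spans_ee H X hp.two_le C`,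
`H := lvl A M₁ p hp hpM`, `X := xDatT A hM hp hpM hA`, `⟨P₀, P₁, C⟩ := exists_cusp M₁ p hp hpM`. -/
theorem noethT : IsNoetherianRing (BT M₁ p A) := by
  obtain ⟨P₀, P₁, C⟩ := exists_cusp M₁ p hp hpM
  have H := lvl A M₁ p hp hpM
  have X := xDatT A hM hp hpM hA
  have hHA : ∀ τ ∈ IA A, ∀ a ∈ A, τ a ∈ A := by
    intro τ hτ a ha
    obtain ⟨hd, -⟩ := red_decompHom_of_inertia hτ
    exact (decompHom τ hd ⟨a, ha⟩).2
  exact DESC.isNoetherianRing_Bu (H := IA A) (N := M₁ * p) (A := A)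
    (v := vv Qb (vG A (M₁ * p)) (wq M₁ p)) (vG_algebraMap_le_one_iff A (M₁ * p)) hHA
    (DSC.isUnif_p A hp hA) ⟨tQ M₁ p, tQ_mem_EC A⟩ (setup_vv (T1.setup H X))
    (T1.ee (alp M₁ p) (bet M₁ p) (xF M₁) (xF' M₁) (mX M₁) p)
    (onm_vv (T1.on2_ee H X hp.two_le)) (T1.spans_ee H X hp.two_le C)

/-- **(TH3) (HG)** for `w ∈ E` with `n ∣ ord_P w` at all places (port of `BK.hg_EC`, `CAR/BK/ConcKR.lean`):
`DESC.hg_Bu (arch_vv (arch A (M₁*p) hp hA)) ⟨tQ M₁ p, tQ_mem_EC A⟩ w (piT M₁ p A) (piT_lt A hA) hn hw (fun c => locPow_of_dvd htr hn hw' hP c)`, `htr := T1.transcendental_tt H X`. -/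
theorem hgT {n : ℕ} (hn : 0 < n) {w : EC A (M₁ * p)} (hw : w ≠ 0)
    (hP : ∀ P : Place Qb (FN (M₁ * p)), (n : ℤ) ∣ P.ord (w : FN (M₁ * p))) :
    ∃ (N m : ℕ) (φ : Fin m → Fin n → EC A (M₁ * p)),
      (∀ k j, φ k j ∈ NS.Lam (BT M₁ p A) n w) ∧
      (∑ k, ∏ j, φ k j) * w = ((piT M₁ p A : BT M₁ p A) : EC A (M₁ * p)) ^ N := by
  have H := lvl A M₁ p hp hpM
  have X := xDatT A hM hp hpM hA
  have htr : Transcendental Qb (tQ M₁ p) := T1.transcendental_tt H X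
  have hw' : (w : FN (M₁ * p)) ≠ 0 := fun h => hw (Subtype.ext h)
  exact DESC.hg_Bu (H := IA A) (N := M₁ * p) (v := vv Qb (vG A (M₁ * p)) (wq M₁ p))
    (arch_vv (arch A (M₁ * p) hp hA)) ⟨tQ M₁ p, tQ_mem_EC A⟩ w (piT M₁ p A) (piT_lt A hA) hn hw
    (fun c => locPow_of_dvd htr hn hw' hP c)

end Fermat.Agent.MR.TH
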