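import Fermat.Agent.MR.TH.Defs

/-!
# MR / TH : `B_u ⧸ pE j ≃ R'`, the instance of `NS.Vert` for the two-valuation chart ring, (KR)
(port of `CAR/BK/{Red,Quot,Vert}.lean` to the setting `T1.Lvl`)
-/

set_option autoImplicit false

open Polynomial ModularCurve AlgebraicCurve

noncomputable section

namespace Fermat.Agent.MR.TH

open Fermat.Agent.GAL.KL Fermat.Agent.GAL.KLC Fermat.Agent.TOR.T1 Fermat.Agent.CAR.ON
open Fermat.Agent.GAL Fermat.Agent.CAR Fermat.Agent.CAR.BK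

variable {K F₀ F k Γ' Γ₀ : Type*} [Field K] [Field F₀] [Field F] [Algebra K F₀]
  [Algebra K F] [Field k] [LinearOrderedCommGroupWithZero Γ'] [LinearOrderedCommGroupWithZero Γ₀]
  {v₀ : Valuation F₀ Γ'} {ρ₀ : v₀.integer →+* LaurentSeries k}
  {v : Valuation F Γ₀} {ρ : v.integer →+* LaurentSeries k}
  {α β : F₀ →ₐ[K] F} {w : F ≃ₐ[K] F} {q : ℕ} [NeZero q] {E₀ : Subfield F₀} {E : Subfield F}
  {u₀ : F₀} {u : F} {η : LaurentSeries k}

/-- `w (wj j z)` is the value at the other index. -/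
theorem w_wj (H : Lvl K ρ₀ ρ α β w q) (j : I2) (z : F) :
    (j = oo ∧ w (wj w j z) = wj w zr z) ∨ (j = zr ∧ w (wj w j z) = wj w oo z) := by
  rcases I2_cases j with rfl | rfl
  · exact Or.inl ⟨rfl, rfl⟩
  · exact Or.inr ⟨rfl, H.ww z⟩

theorem Chart2.intα (C : Chart2 K ρ₀ ρ α β w E₀ E q u₀ u η) (c : F₀) (h : IsInt K u₀ c) :
    IsInt K u (α c) := C.ci.intα c h

theorem Chart2.intβ (H : Lvl K ρ₀ ρ α β w q) (C : Chart2 K ρ₀ ρ α β w E₀ E q u₀ u η) (c : F₀)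
    (h : IsInt K u₀ c) : IsInt K u (β c) := by
  rw [← H.wα c]
  exact isInt_w C.ci.wu (C.ci.intα c h)

/-- `α c ∈ B_u` for `c ∈ E₀` integral over `K[u₀]` with `v₀ c ≤ 1`; its two reductions. -/
theorem exists_α (H : Lvl K ρ₀ ρ α β w q) (C : Chart2 K ρ₀ ρ α β w E₀ E q u₀ u η)
    {c : F₀} (hc : c ∈ E₀) (hi : IsInt K u₀ c) {φ : LaurentSeries k} (hr : Rd ρ₀ c φ) :
    ∃ z : B2 K E v w u, ((z : E) : F) = α c ∧ rE K E ρ w u oo z = φ ∧
      rE K E ρ w u zr z = qExpand k q φ := by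
  have h1 : Rd ρ (α c) φ := H.ρα c φ hr
  have h2 : Rd ρ (w (α c)) (qExpand k q φ) := by rw [H.wα]; exact H.ρβ c φ hr
  refine ⟨⟨⟨α c, C.αE c hc⟩, mem_B2.2 ⟨C.intα c hi, h1.le_one, h2.le_one⟩⟩, rfl, ?_, ?_⟩
  · exact (rd_rE E ρ w u oo _).unique h1
  · exact (rd_rE E ρ w u zr _).unique h2

/-- the same for `β`. -/
theorem exists_β (H : Lvl K ρ₀ ρ α β w q) (C : Chart2 K ρ₀ ρ α β w E₀ E q u₀ u η)
    {c : F₀} (hc : c ∈ E₀) (hi : IsInt K u₀ c) {φ : LaurentSeries k} (hr : Rd ρ₀ c φ) :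
    ∃ z : B2 K E v w u, ((z : E) : F) = β c ∧ rE K E ρ w u oo z = qExpand k q φ ∧
      rE K E ρ w u zr z = φ := by
  have h1 : Rd ρ (β c) (qExpand k q φ) := H.ρβ c φ hr
  have h2 : Rd ρ (w (β c)) φ := by rw [H.wβ]; exact H.ρα c φ hr
  refine ⟨⟨⟨β c, C.βE c hc⟩, mem_B2.2 ⟨C.intβ H c hi, h1.le_one, h2.le_one⟩⟩, rfl, ?_, ?_⟩
  · exact (rd_rE E ρ w u oo _).unique h1
  · exact (rd_rE E ρ w u zr _).unique h2

/-- the image of `rE j` lies in the reduced chart ring. -/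
theorem rE_mem_RR (H : Lvl K ρ₀ ρ α β w q) (C : Chart2 K ρ₀ ρ α β w E₀ E q u₀ u η)
    (j : I2) (z : B2 K E v w u) : rE K E ρ w u j z ∈ RP.RR (CTV.Fbar H.red₀) η := by
  rw [RP.mem_RR]
  refine ⟨(mem_Fbar_iff H.red₀).2 (C.ci.res _ _ (rd_rE E ρ w u j z)), ?_⟩
  rcases I2_cases j with rfl | rfl
  · exact C.ci.ir _ _ z.2.1 (rd_rE E ρ w u oo z) (z.2.2 zr)
  · refine C.ci.ir _ _ (isInt_w C.ci.wu z.2.1) (rd_rE E ρ w u zr z) ?_
    show v (w (w ((z : E) : F))) ≤ 1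
    rw [H.ww]
    exact z.2.2 oo

/-- `rE j` is onto the reduced chart ring. -/
theorem rE_surj (H : Lvl K ρ₀ ρ α β w q) (C : Chart2 K ρ₀ ρ α β w E₀ E q u₀ u η)
    (j : I2) {φ : LaurentSeries k} (hφ : φ ∈ RP.RR (CTV.Fbar H.red₀) η) :
    ∃ z : B2 K E v w u, rE K E ρ w u j z = φ := by
  rw [RP.mem_RR] at hφ
  obtain ⟨c, hc⟩ := (mem_Fbar_iff H.red₀).1 hφ.1
  obtain ⟨c', hc'E, hi, hr⟩ := C.lift c φ hc hφ.2
  rcases I2_cases j with rfl | rfl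
  · obtain ⟨z, -, h1, -⟩ := exists_α H C hc'E hi hr
    exact ⟨z, h1⟩
  · obtain ⟨z, -, -, h1⟩ := exists_β H C hc'E hi hr
    exact ⟨z, h1⟩

/-- the kernel of `rE j` is `pE j`. -/
theorem rE_eq_zero_iff (H : Lvl K ρ₀ ρ α β w q) (j : I2) (z : B2 K E v w u) :
    rE K E ρ w u j z = 0 ↔ z ∈ pE K E v w u j :=
  H.red.ker _

/-- the reduction map with values in the reduced chart ring `R'`. -/
def rR (H : Lvl K ρ₀ ρ α β w q) (C : Chart2 K ρ₀ ρ α β w E₀ E q u₀ u η) (j : I2) :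
    B2 K E v w u →+* RP.RR (CTV.Fbar H.red₀) η :=
  (rE K E ρ w u j).codRestrict (RP.RR (CTV.Fbar H.red₀) η) (fun z => rE_mem_RR H C j z)

@[simp] theorem coe_rR (H : Lvl K ρ₀ ρ α β w q) (C : Chart2 K ρ₀ ρ α β w E₀ E q u₀ u η) (j : I2)
    (z : B2 K E v w u) : ((rR H C j z : RP.RR (CTV.Fbar H.red₀) η) : LaurentSeries k)
      = rE K E ρ w u j z := rfl

theorem rR_surjective (H : Lvl K ρ₀ ρ α β w q) (C : Chart2 K ρ₀ ρ α β w E₀ E q u₀ u η) (j : I2) :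
    Function.Surjective (rR H C j) := by
  rintro ⟨φ, hφ⟩
  obtain ⟨z, hz⟩ := rE_surj H C j hφ
  exact ⟨z, Subtype.ext hz⟩

theorem rR_eq_zero_iff (H : Lvl K ρ₀ ρ α β w q) (C : Chart2 K ρ₀ ρ α β w E₀ E q u₀ u η) (j : I2)
    (z : B2 K E v w u) : rR H C j z = 0 ↔ z ∈ pE K E v w u j := by
  rw [← rE_eq_zero_iff H j z]
  constructor
  · intro h
    exact congrArg Subtype.val h
  · intro h
    exact Subtype.ext h

/-- **`B/p_j = R'`.** -/
theorem exists_quotEquiv (H : Lvl K ρ₀ ρ α β w q) (C : Chart2 K ρ₀ ρ α β w E₀ E q u₀ u η)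
    (j : I2) :
    ∃ e : (B2 K E v w u ⧸ pE K E v w u j) ≃+* RP.RR (CTV.Fbar H.red₀) η,
      ∀ z : B2 K E v w u, e (Ideal.Quotient.mk _ z) = rR H C j z := by
  classical
  have hker : pE K E v w u j = RingHom.ker (rR H C j) := by
    ext z
    rw [RingHom.mem_ker, rR_eq_zero_iff]
  refine ⟨(Ideal.quotEquivOfEq hker).trans
    (RingHom.quotientKerEquivOfSurjective (rR_surjective H C j)), fun z => ?_⟩
  rfl

theorem isDedekindDomain_quot (H : Lvl K ρ₀ ρ α β w q) (C : Chart2 K ρ₀ ρ α β w E₀ E q u₀ u η)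
    (hD : IsDedekindDomain (RP.RR (CTV.Fbar H.red₀) η)) (j : I2) :
    IsDedekindDomain (B2 K E v w u ⧸ pE K E v w u j) := by
  obtain ⟨e, -⟩ := exists_quotEquiv H C j
  exact isDedekindDomain_of_ringEquiv e.symm

/-- `η^(q²) ≠ η`. -/
theorem eta_ne (C : Chart2 K ρ₀ ρ α β w E₀ E q u₀ u η) (hq : 2 ≤ q) : (η ^ q) ^ q - η ≠ 0 := by
  intro h
  rw [← pow_mul] at h
  have h1 := congrArg HahnSeries.order (sub_eq_zero.mp h)
  rw [HahnSeries.order_pow, nsmul_eq_mul] at h1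
  have h2 : (((q * q : ℕ) : ℤ) - 1) * η.order = 0 := by linear_combination h1
  rcases mul_eq_zero.mp h2 with h3 | h3
  · have : (2 : ℤ) ≤ ((q * q : ℕ) : ℤ) := by
      have : 2 ≤ q * q := by nlinarith
      exact_mod_cast this
    omega
  · exact C.oη h3

/-- separating elements: `a = α u₀ ≡ (η, η^q)`, `c = β u₀ ≡ (η^q, η)`; `a^q - c ≡ (0, η^(q²) - η)`, `c^q - a ≡ (η^(q²) - η, 0)`. -/
theorem exists_sep (H : Lvl K ρ₀ ρ α β w q) (C : Chart2 K ρ₀ ρ α β w E₀ E q u₀ u η) (hq : 2 ≤ q)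
    (i j : I2) (hij : i ≠ j) :
    ∃ z : B2 K E v w u, z ∈ pE K E v w u j ∧ z ∉ pE K E v w u i := by
  have h2 := eta_ne C hq
  have hint : IsInt K u₀ u₀ := by simpa using IsInt.aeval (L := K) (t := u₀) X
  obtain ⟨a, -, ao, az⟩ := exists_α H C C.u₀E hint C.ru
  obtain ⟨c, -, co, cz⟩ := exists_β H C C.u₀E hint C.ru
  rw [C.Vη] at az co
  simp only [← rE_eq_zero_iff H]
  rcases I2_cases j with rfl | rfl
  · refine ⟨a ^ q - c, by rw [map_sub, map_pow, ao, co, sub_self], ?_⟩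
    rcases I2_cases i with rfl | rfl
    · exact absurd rfl hij
    · rw [map_sub, map_pow, az, cz]; exact h2
  · refine ⟨c ^ q - a, by rw [map_sub, map_pow, cz, az, sub_self], ?_⟩
    rcases I2_cases i with rfl | rfl
    · rw [map_sub, map_pow, co, ao]; exact h2
    · exact absurd rfl hij

/-- the residue field of `vE j` is the fraction field of `B_u / pE j`. -/
theorem frac (H : Lvl K ρ₀ ρ α β w q) (C : Chart2 K ρ₀ ρ α β w E₀ E q u₀ u η)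
    (j : I2) (x : E) (hx : vE K E v w j x ≤ 1) :
    ∃ b s : B2 K E v w u, s ∉ pE K E v w u j ∧ vE K E v w j (((s : E)) * x - (b : E)) < 1 := by
  obtain ⟨φ, hφ⟩ := exists_rd (ρ := ρ) (z := wj w j (x : F)) hx
  obtain ⟨c, hc⟩ := C.ci.res _ φ hφ
  obtain ⟨b, s, hs0, hb1, hb2, hs1, hs2, hsb⟩ := C.fr c φ hc
  obtain ⟨zb, hzb⟩ := rE_surj H C j (φ := b) ⟨(mem_Fbar_iff H.red₀).mpr hb1, hb2⟩
  obtain ⟨zs, hzs⟩ := rE_surj H C j (φ := s) ⟨(mem_Fbar_iff H.red₀).mpr hs1, hs2⟩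
  refine ⟨zb, zs, fun h => hs0 ?_, ?_⟩
  · rw [← hzs]
    exact (rE_eq_zero_iff H j zs).mpr h
  · have e1 : Rd ρ (wj w j ((zs : E) : F) * wj w j (x : F)) b := by
      have := (rd_rE E ρ w u j zs).mul hφ
      rwa [hzs, hsb] at this
    have e2 : Rd ρ (wj w j ((zb : E) : F)) b := by
      have := rd_rE E ρ w u j zb
      rwa [hzb] at this
    have e3 := e1.sub_lt H.red e2
    rw [← map_mul, ← map_sub] at e3
    exact e3

/-- **the instance of `NS.Vert`.** -/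
theorem vert (H : Lvl K ρ₀ ρ α β w q) (C : Chart2 K ρ₀ ρ α β w E₀ E q u₀ u η) (hq : 2 ≤ q)
    (hA : Arch v) (hD : IsDedekindDomain (RP.RR (CTV.Fbar H.red₀) η)) :
    NS.Vert (B2 K E v w u) (vE K E v w) (pE K E v w u) where
  ic := ic
  le_one := fun i z => z.2.2 _
  mem_p := fun _ _ => Iff.rfl
  arch := fun i x hx γ hγ => arch_vw hA (wj w i) (x : F) hx γ hγ
  ded := fun j => isDedekindDomain_quot H C hD j
  frac := fun j x hx => frac H C j x hx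
  ne := fun i j hij hle => by
    obtain ⟨z, hz, hz'⟩ := exists_sep H C hq i j hij
    exact hz' (hle hz)

/-- hypothesis (KR) of `NS.ns_main`, for `π` a nonzero constant. -/
theorem kr (a : K) (ha : a ≠ 0)
    (π : B2 K E v w u) (hπ : ((π : E) : F) = algebraMap K F a) (z : E)
    (h1 : ∃ N : ℕ, ((π : E)) ^ N * z ∈ B2 K E v w u) (h2 : ∀ j, vE K E v w j z ≤ 1) :
    z ∈ B2 K E v w u := by
  refine ⟨?_, h2⟩
  obtain ⟨N, hN⟩ := h1
  have h3 : IsInt K u ((((π : E)) ^ N * z : E) : F) := hN.1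
  rw [Subfield.coe_mul, SubmonoidClass.coe_pow, hπ] at h3
  have haF : algebraMap K F a ≠ 0 := by simpa using ha
  have h4 : (z : F) = algebraMap K F (a⁻¹ ^ N) * (algebraMap K F a ^ N * (z : F)) := by
    rw [map_pow, map_inv₀, ← mul_assoc, ← mul_pow, inv_mul_cancel₀ haF, one_pow, one_mul]
  rw [h4]
  exact (IsInt.algebraMap _).mul h3

end Fermat.Agent.MR.TH
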