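import Fermat.Agent.MR.TH.Disc
import Fermat.Agent.CAR.TH1.Formal
import Fermat.Agent.CAR.XW.Main

/-!
# MR / TH / XT : the modular unit `X = G'(τ)/G'(pτ)` and `X' = w_p X` as elements of `BT`   (package MR-TH-4)
`X X' = p^(12 e₀)`, `|X| = (1, |p|^n)`, `|X'| = (|p|^n, 1)`, `r_∞ X = H = XR k M₁ p`.
The integrality `hX : IsInt ℚ̄ t X` is `CAR.TH1.isInt_XF_of` (block [X] of CAR); it is kept as a hypothesis here.
-/

set_option autoImplicit false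

open ModularCurve AlgebraicCurve Polynomial

noncomputable section

namespace Fermat.Agent.MR.TH

open Fermat.Agent.GR Fermat.Agent.GAL Fermat.Agent.GAL.KL Fermat.Agent.GAL.KLC Fermat.Agent.S24
open Fermat.Agent.GR.HeckeField Fermat.Agent.TOR Fermat.Agent.TOR.GB Fermat.Agent.TOR.T1C
open Fermat.Agent.CAR Fermat.Agent.CAR.BK Fermat.Agent.CAR.ON Fermat.Agent.CAR.CNT
open Fermat.Agent.CAR.DESC

variable {M₁ p : ℕ} [NeZero M₁] [NeZero p] (A : ValuationSubring Qb)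

/-- (`TH1.galF_XF`, `mem_EC_iff_galF`.) -/
theorem XF_mem_EC : TH1.XF M₁ p ∈ EC A (M₁ * p) := by
  rw [mem_EC_iff_galF]
  intro τ _
  exact TH1.galF_XF τ M₁ p

/-- `v_∞ X = 1`  (`TH1.rd_XF`, `Rd.v_eq_one (isRed ..)`, `TH1.XR_ne_zero`). -/
theorem vG_XF : vG A (M₁ * p) (TH1.XF M₁ p) = 1 :=
  (TH1.rd_XF A M₁ p).v_eq_one (isRed A (M₁ * p)) (TH1.XR_ne_zero (kA A) M₁ p)

/-- `v_∞ (w X) = |p|^n`  (apply `vG` to `XW.wq_XF`, `vG_XF`). -/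
theorem vG_wq_XF (hp : p.Prime) (hpM : ¬ p ∣ M₁) :
    vG A (M₁ * p) (wq M₁ p (TH1.XF M₁ p))
      = vG A (M₁ * p) (algebraMap Qb (FN (M₁ * p)) (p : Qb)) ^ (12 * e0 M₁) := by
  have h := congrArg (vG A (M₁ * p)) (XW.wq_XF (M := M₁) (q := p) hp hpM)
  rwa [map_mul, vG_XF, mul_one, map_pow, map_pow] at h

variable (hp : p.Prime) (hpM : ¬ p ∣ M₁) (hA : A.LiesOverPrime p)
  (hX : IsInt Qb (tQ M₁ p) (TH1.XF M₁ p))
include hp hpM hA hX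

/-- `X ∈ BT`.  (`mem_B2`: `hX`, `vG_XF`, `vG_wq_XF` + `vG_p_lt_one` + `pow_le_one'`.) -/
theorem XF_mem_BT : (⟨TH1.XF M₁ p, XF_mem_EC A⟩ : EC A (M₁ * p)) ∈ BT M₁ p A := by
  refine mem_B2.2 ⟨hX, (vG_XF A).le, ?_⟩
  show vG A (M₁ * p) (wq M₁ p (TH1.XF M₁ p)) ≤ 1
  rw [vG_wq_XF A hp hpM]
  exact pow_le_one' (vG_p_lt_one A hA (M₁ * p)).le _

/-- `X' = w X ∈ BT`.  (`T1.isInt_w (T1.w_tt (lvl ..) _) hX`, `vG_wq_XF`, `wq_wq`, `vG_XF`.) -/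
theorem wXF_mem_BT :
    (⟨wq M₁ p (TH1.XF M₁ p), wq_mem_EC A hp hpM (XF_mem_EC A)⟩ : EC A (M₁ * p)) ∈ BT M₁ p A := by
  refine mem_B2.2 ⟨T1.isInt_w (T1.w_tt (lvl A M₁ p hp hpM) _) hX, ?_, ?_⟩
  · show vG A (M₁ * p) (wq M₁ p (TH1.XF M₁ p)) ≤ 1
    rw [vG_wq_XF A hp hpM]
    exact pow_le_one' (vG_p_lt_one A hA (M₁ * p)).le _
  · show vG A (M₁ * p) (wq M₁ p (wq M₁ p (TH1.XF M₁ p))) ≤ 1
    rw [wq_wq hp hpM]
    exact (vG_XF A).le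

/-- `X` as an element of `BT`. -/
def XT : BT M₁ p A := ⟨_, XF_mem_BT A hp hpM hA hX⟩

/-- `X' = w X` as an element of `BT`. -/
def XT' : BT M₁ p A := ⟨_, wXF_mem_BT A hp hpM hA hX⟩

/-- (`XW.wq_XF`, `coe_piT`; `Subtype.ext` twice.) -/
theorem XT_mul : XT A hp hpM hA hX * XT' A hp hpM hA hX = piT M₁ p A ^ (12 * e0 M₁) := by
  apply Subtype.ext
  apply Subtype.ext
  show TH1.XF M₁ p * wq M₁ p (TH1.XF M₁ p)
    = (((piT M₁ p A : BT M₁ p A) : EC A (M₁ * p)) : FN (M₁ * p)) ^ (12 * e0 M₁)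
  rw [coe_piT, mul_comm (TH1.XF M₁ p), XW.wq_XF hp hpM, map_pow]

theorem vT_XT : vT M₁ p A oo ((XT A hp hpM hA hX : BT M₁ p A) : EC A (M₁ * p)) = 1 :=
  vG_XF A

/-- (`wq_wq`, `vG_XF`.) -/
theorem vT_XT' : vT M₁ p A zr ((XT' A hp hpM hA hX : BT M₁ p A) : EC A (M₁ * p)) = 1 := by
  show vG A (M₁ * p) (wq M₁ p (wq M₁ p (TH1.XF M₁ p))) = 1
  rw [wq_wq hp hpM]
  exact vG_XF A

/-- `r_∞ X = H`.  (`(rd_rT ..).unique (TH1.rd_XF A M₁ p)`.) -/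
theorem rT_XT (hM : AdmLevel M₁) :
    ((rT A hM hp hpM hA oo (XT A hp hpM hA hX) : RP.RC A M₁) : LaurentSeries (kA A))
      = TH1.XR (kA A) M₁ p :=
  (rd_rT A hM hp hpM hA oo (XT A hp hpM hA hX)).unique (TH1.rd_XF A M₁ p)

end Fermat.Agent.MR.TH
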